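import Mathlib

set_option autoImplicit false

namespace Fermat.Agent.S51

/-- Numerator of `u` on the fibre product of `X_0(3)` and `X_0(5)`. -/
def fpPu (τ s : ℚ) : ℚ := τ ^ 2 + 18 * τ - 3 * s ^ 3 - 39 * s ^ 2 - 105 * s
/-- Denominator of `u`. -/
def fpDu (τ s : ℚ) : ℚ := (τ + 3) * (s ^ 2 + 4 * s - 1)
/-- Numerator of `v`. -/
def fpPv (τ s : ℚ) : ℚ := 45 * τ ^ 3 * s + 18 * τ ^ 2 * s ^ 3 + 324 * τ ^ 2 * s ^ 2 + 1800 * τ ^ 2 * s - 9 * τ ^ 2 + 9 * τ * s ^ 5 + 270 * τ * s ^ 4 + 2844 * τ * s ^ 3 + 11772 * τ * s ^ 2 + 14220 * τ * s + 36 * τ - 6561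
/-- Denominator of `v`. -/
def fpDv (τ s : ℚ) : ℚ := τ * (τ + 3) ^ 2 * (s ^ 2 + 4 * s - 1)

theorem fp_curve_identity (τ s : ℚ) :
    fpPu τ s ^ 2 * fpPv τ s * fpDv τ s + fpPu τ s * fpDu τ s * fpPv τ s ^ 2
      + 5 * fpPu τ s * fpDu τ s * fpPv τ s * fpDv τ s + 9 * fpPu τ s * fpDu τ s * fpDv τ s ^ 2
      - fpPv τ s * fpDu τ s ^ 2 * fpDv τ s =
    (45 * τ ^ 6 * s ^ 2 + 180 * τ ^ 6 * s - 45 * τ ^ 6 + 9 * τ ^ 5 * s ^ 5 + 351 * τ ^ 5 * s ^ 4 + 4626 * τ ^ 5 * s ^ 3 + 14958 * τ ^ 5 * s ^ 2 + 3717 * τ ^ 5 * s - 1773 * τ ^ 5 + 54 * τ ^ 4 * s ^ 6 + 3429 * τ ^ 4 * s ^ 5 + 53919 * τ ^ 4 * s ^ 4 + 323379 * τ ^ 4 * s ^ 3 + 627372 * τ ^ 4 * s ^ 2 - 81864 * τ ^ 4 * s - 20061 * τ ^ 4 + 891 * τ ^ 3 * s ^ 7 + 31104 * τ ^ 3 * s ^ 6 + 428814 * τ ^ 3 * s ^ 5 + 2855736 *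 τ ^ 3 * s ^ 4 + 8935677 * τ ^ 3 * s ^ 3 + 9786258 * τ ^ 3 * s ^ 2 - 2626830 * τ ^ 3 * s - 52002 * τ ^ 3 + 243 * τ ^ 2 * s ^ 9 + 11421 * τ ^ 2 * s ^ 8 + 224289 * τ ^ 2 * s ^ 7 + 2373867 * τ ^ 2 * s ^ 6 + 14562018 * τ ^ 2 * s ^ 5 + 51413697 * τ ^ 2 * s ^ 4 + 94527729 * τ ^ 2 * s ^ 3 + 61121304 * τ ^ 2 * s ^ 2 - 21693339 * τ ^ 2 * s + 300591 * τ ^ 2 + 729 * τ * s ^ 9 + 34263 * τ * s ^ 8 + 664848 * τ * s ^ 7 + 6843123 * τ * s ^ 6 + 39918582 * τ * s ^ 5 + 129789702 * τ * s ^ 4 + 208507122 * τ * s ^ 3 + 95791329 * τ * s ^ 2 - 66403881 * τ * s + 7160967 * τ - 531441 * s ^ 4 - 9034497 * s ^ 3 - 45703926 * s ^ 2 - 67493007 * s + 18600435) *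
      (s * (τ + 27) * (τ + 3) ^ 3 - τ * (s ^ 2 + 10 * s + 5) ^ 3) := by
  unfold fpPu fpDu fpPv fpDv
  ring

set_option maxHeartbeats 4000000 in
theorem fp_tau_identity (τ s : ℚ) :
    τ * fpPu τ s ^ 2 * fpPv τ s ^ 3 - 729 * fpDu τ s ^ 2 * fpDv τ s ^ 3 =
    (91125 * τ ^ 10 * s ^ 2 + 109350 * τ ^ 9 * s ^ 4 + 1968300 * τ ^ 9 * s ^ 3 + 10935000 * τ ^ 9 * s ^ 2 - 54675 * τ ^ 9 * s + 98415 * τ ^ 8 * s ^ 6 + 2668140 * τ ^ 8 * s ^ 5 + 33089310 * τ ^ 8 * s ^ 4 + 209798910 * τ ^ 8 * s ^ 3 + 527919930 * τ ^ 8 * s ^ 2 - 4155300 * τ ^ 8 * s + 10935 * τ ^ 8 - 729 * τ ^ 7 * s ^ 9 + 34992 * τ ^ 7 * s ^ 8 + 1736478 * τ ^ 7 * s ^ 7 + 31220154 * τ ^ 7 * s ^ 6 + 330046731 * τ ^ 7 * s ^ 5 + 2208428226 * τ ^ 7 * s ^ 4 + 8405885403 * τ ^ 7 * s ^ 3 + 13109844654 * τ ^ 7 *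 s ^ 2 - 135766773 * τ ^ 7 * s + 335340 * τ ^ 7 + 19683 * τ ^ 6 * s ^ 10 + 761076 * τ ^ 6 * s ^ 9 + 12826755 * τ ^ 6 * s ^ 8 + 138922614 * τ ^ 6 * s ^ 7 + 1270747602 * τ ^ 6 * s ^ 6 + 9919772730 * τ ^ 6 * s ^ 5 + 52872363063 * τ ^ 6 * s ^ 4 + 153931728186 * τ ^ 6 * s ^ 3 + 176541157260 * τ ^ 6 * s ^ 2 - 3245070600 * τ ^ 6 * s + 10005525 * τ ^ 6 + 4374 * τ ^ 5 * s ^ 12 + 142155 * τ ^ 5 * s ^ 11 + 113724 * τ ^ 5 * s ^ 10 - 59079618 * τ ^ 5 * s ^ 9 - 1161235764 * τ ^ 5 * s ^ 8 - 10398577014 * τ ^ 5 * s ^ 7 - 45973688076 * τ ^ 5 * s ^ 6 - 58756792743 * τ ^ 5 * s ^ 5 + 291830012622 * τ ^ 5 * s ^ 4 + 1177882495038 * τ ^ 5 * s ^ 3 + 1210648207770 * τ ^ 5 * s ^ 2 - 62991264330 * τ ^ 5 * s + 271625400 * τ ^ 5 - 39366 * τ ^ 4 * s ^ 13 - 2834352 * τ ^ 4 * s ^ 12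 - 90463068 * τ ^ 4 * s ^ 11 - 1678349727 * τ ^ 4 * s ^ 10 - 19934155080 * τ ^ 4 * s ^ 9 - 157169030562 * τ ^ 4 * s ^ 8 - 823567268016 * τ ^ 4 * s ^ 7 - 2776426682787 * τ ^ 4 * s ^ 6 - 5511930282810 * τ ^ 4 * s ^ 5 - 4921351984872 * τ ^ 4 * s ^ 4 + 908418122226 * τ ^ 4 * s ^ 3 + 3097032559065 * τ ^ 4 * s ^ 2 - 718489729980 * τ ^ 4 * s + 3999093525 * τ ^ 4 - 6561 * τ ^ 3 * s ^ 15 - 564246 * τ ^ 3 * s ^ 14 - 21861252 * τ ^ 3 * s ^ 13 - 503373042 * τ ^ 3 * s ^ 12 - 7651661274 * τ ^ 3 * s ^ 11 - 80656078860 * τ ^ 3 * s ^ 10 - 602591377401 * τ ^ 3 * s ^ 9 - 3203741575044 * τ ^ 3 * s ^ 8 - 11983404788271 * τ ^ 3 * s ^ 7 - 30619104198804 * τ ^ 3 * s ^ 6 - 50431039258383 * τ ^ 3 * s ^ 5 - 47517661804536 * τ ^ 3 * s ^ 4 - 18731321589663 * τ ^ 3 * s ^ 3 - 665505783990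 * τ ^ 3 * s ^ 2 - 3180092457105 * τ ^ 3 * s + 69289277580 * τ ^ 3 + 9565938 * τ ^ 2 * s ^ 10 + 535692528 * τ ^ 2 * s ^ 9 + 12775310199 * τ ^ 2 * s ^ 8 + 168561393498 * τ ^ 2 * s ^ 7 + 1337920786494 * τ ^ 2 * s ^ 6 + 6499930513806 * τ ^ 2 * s ^ 5 + 18749444147667 * τ ^ 2 * s ^ 4 + 29155075402338 * τ ^ 2 * s ^ 3 + 18521463930282 * τ ^ 2 * s ^ 2 + 105340109256 * τ ^ 2 * s + 732057320295 * τ ^ 2 - 3486784401 * τ * s ^ 5 - 90656394426 * τ * s ^ 4 - 833341471839 * τ * s ^ 3 - 3172973804910 * τ * s ^ 2 - 4271310891225 * τ * s) *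
      (s * (τ + 27) * (τ + 3) ^ 3 - τ * (s ^ 2 + 10 * s + 5) ^ 3) := by
  unfold fpPu fpDu fpPv fpDv
  ring

end Fermat.Agent.S51
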