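import Mathlib
import Fermat.Agent.S51.FiberIdent

set_option autoImplicit false

namespace Fermat.Agent.S51

theorem not_sq_five (r : ℚ) : r ^ 2 ≠ 5 := by
  intro h
  have h5 : IsSquare ((5 : ℕ) : ℚ) := ⟨r, by push_cast; linear_combination (-1 : ℚ) * h⟩
  rw [Rat.isSquare_natCast_iff] at h5
  obtain ⟨m, hm⟩ := h5
  have : m < 3 := by nlinarith
  interval_cases m <;> omega

theorem not_sq_twenty (r : ℚ) : r ^ 2 ≠ 20 := by
  intro h
  exact not_sq_five (r / 2) (by linear_combination (1 / 4 : ℚ) * h)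

/-- (C1) The fibre product of `X_0(3)` and `X_0(5)` over the `j`-line maps to the `(u,v)`-model of
`X_0(15)`. -/
theorem fiber_to_x015 (τ s : ℚ) (hτ : τ ≠ 0) (hs : s ≠ 0)
    (h : s * (τ + 27) * (τ + 3) ^ 3 = τ * (s ^ 2 + 10 * s + 5) ^ 3) :
    ∃ u v : ℚ, u ^ 2 * v + u * v ^ 2 + 5 * u * v + 9 * u - v = 0 ∧ τ * u ^ 2 * v ^ 3 = 729 := by
  have hrel : s * (τ + 27) * (τ + 3) ^ 3 - τ * (s ^ 2 + 10 * s + 5) ^ 3 = 0 := sub_eq_zero.mpr h
  have h3 : τ + 3 ≠ 0 := by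
    intro h3
    have h4 : τ * (s ^ 2 + 10 * s + 5) ^ 3 = 0 := by
      rw [← h, h3]; ring
    rcases mul_eq_zero.mp h4 with h5 | h5
    · exact hτ h5
    · have h6 : s ^ 2 + 10 * s + 5 = 0 := by simpa using h5
      exact not_sq_twenty (s + 5) (by linear_combination h6)
  have hq : s ^ 2 + 4 * s - 1 ≠ 0 := fun hq => not_sq_five (s + 2) (by linear_combination hq)
  have hDu : fpDu τ s ≠ 0 := mul_ne_zero h3 hq
  have hDv : fpDv τ s ≠ 0 := mul_ne_zero (mul_ne_zero hτ (pow_ne_zero 2 h3)) hq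
  refine ⟨fpPu τ s / fpDu τ s, fpPv τ s / fpDv τ s, ?_, ?_⟩
  · have key := fp_curve_identity τ s
    rw [hrel, mul_zero] at key
    have e : (fpPu τ s / fpDu τ s) ^ 2 * (fpPv τ s / fpDv τ s)
        + (fpPu τ s / fpDu τ s) * (fpPv τ s / fpDv τ s) ^ 2
        + 5 * (fpPu τ s / fpDu τ s) * (fpPv τ s / fpDv τ s) + 9 * (fpPu τ s / fpDu τ s)
        - fpPv τ s / fpDv τ s =
        (fpPu τ s ^ 2 * fpPv τ s * fpDv τ s + fpPu τ s * fpDu τ s * fpPv τ s ^ 2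
          + 5 * fpPu τ s * fpDu τ s * fpPv τ s * fpDv τ s + 9 * fpPu τ s * fpDu τ s * fpDv τ s ^ 2
          - fpPv τ s * fpDu τ s ^ 2 * fpDv τ s) / (fpDu τ s ^ 2 * fpDv τ s ^ 2) := by
      field_simp
    rw [e, key, zero_div]
  · have key := fp_tau_identity τ s
    rw [hrel, mul_zero] at key
    have e : τ * (fpPu τ s / fpDu τ s) ^ 2 * (fpPv τ s / fpDv τ s) ^ 3 - 729 =
        (τ * fpPu τ s ^ 2 * fpPv τ s ^ 3 - 729 * fpDu τ s ^ 2 * fpDv τ s ^ 3)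
          / (fpDu τ s ^ 2 * fpDv τ s ^ 3) := by
      field_simp
    have e2 := e
    rw [key, zero_div] at e2
    linear_combination e2

end Fermat.Agent.S51
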