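/-
`3`- and `5`-torsion points of a Weierstrass curve over a field, via "local coordinates"
at an affine point (helper module for S51).

For an affine point `P = (x, y)` with `η = 2y + a₁x + a₃ ≠ 0` and tangent slope `lam`, put
`A1 = a₁ + 2 lam`, `A2 = x(P) - x(2P)`, `A3 = η`.  Then the curve is isomorphic to
`Y² + A1 XY + A3 Y = X³ + A2 X²` (with `P` at the origin), which gives `c₄` and `Δ` as
polynomials in `A1, A2, A3`.  `3P = 0` iff `A2 = 0`, and `5P = 0` iff `A2³ + A3² = A1 A2 A3`.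
-/
import Mathlib

set_option autoImplicit false

namespace Fermat.Agent.S51

open WeierstrassCurve Polynomial

variable {K : Type*} [Field K]

/-- Local coordinates at an affine point `(x, y)` with `η = 2y + a₁x + a₃ ≠ 0`. -/
theorem local_coords (W : WeierstrassCurve K) {x y η lam A1 A2 : K}
    (h : W.toAffine.Equation x y)
    (hη : η = 2 * y + W.a₁ * x + W.a₃)
    (hlam : lam * η = 3 * x ^ 2 + 2 * W.a₂ * x + W.a₄ - W.a₁ * y)
    (hA1 : A1 = W.a₁ + 2 * lam) (hA2 : A2 = 3 * x + W.a₂ - lam ^ 2 - W.a₁ * lam) :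
    A1 ^ 2 + 4 * A2 = W.b₂ + 12 * x ∧
    A1 * η = 6 * x ^ 2 + W.b₂ * x + W.b₄ ∧
    η ^ 2 = 4 * x ^ 3 + W.b₂ * x ^ 2 + 2 * W.b₄ * x + W.b₆ ∧
    A2 * η ^ 2 = 3 * x ^ 4 + W.b₂ * x ^ 3 + 3 * W.b₄ * x ^ 2 + 3 * W.b₆ * x + W.b₈ := by
  rw [WeierstrassCurve.Affine.equation_iff'] at h
  subst hA1 hA2 hη
  refine ⟨?_, ?_, ?_, ?_⟩
  · simp only [b₂]; ring
  · simp only [b₂, b₄]
    linear_combination 2 * hlam
  · simp only [b₂, b₄, b₆]
    linear_combination 4 * h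
  · simp only [b₂, b₄, b₆, b₈]
    linear_combination (12 * x + W.a₁ ^ 2 + 4 * W.a₂) * h
      - (lam * (2 * y + W.a₁ * x + W.a₃) + (3 * x ^ 2 + 2 * W.a₂ * x + W.a₄ - W.a₁ * y)
          + W.a₁ * (2 * y + W.a₁ * x + W.a₃)) * hlam

/-- `c₄` and `Δ` in local coordinates. -/
theorem c4_Δ_local (W : WeierstrassCurve K) {x η A1 A2 : K}
    (h2 : A1 ^ 2 + 4 * A2 = W.b₂ + 12 * x)
    (h4 : A1 * η = 6 * x ^ 2 + W.b₂ * x + W.b₄)
    (h6 : η ^ 2 = 4 * x ^ 3 + W.b₂ * x ^ 2 + 2 * W.b₄ * x + W.b₆)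
    (h8 : A2 * η ^ 2 = 3 * x ^ 4 + W.b₂ * x ^ 3 + 3 * W.b₄ * x ^ 2 + 3 * W.b₆ * x + W.b₈) :
    W.c₄ = (A1 ^ 2 + 4 * A2) ^ 2 - 24 * (A1 * η) ∧
    W.Δ = -(A1 ^ 2 + 4 * A2) ^ 2 * (A2 * η ^ 2) - 8 * (A1 * η) ^ 3 - 27 * (η ^ 2) ^ 2
      + 9 * (A1 ^ 2 + 4 * A2) * (A1 * η) * η ^ 2 := by
  rw [h2, h4, h8, h6]
  constructor
  · simp only [c₄]; ring
  · simp only [Δ, b₂, b₄, b₆, b₈]; ring

/-- Algebraic core of the 3-isogeny parametrisation. -/
theorem three_core {c4 D η A1 A2 : K} (hη : η ≠ 0) (hA2 : A2 = 0)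
    (hc4 : c4 = (A1 ^ 2 + 4 * A2) ^ 2 - 24 * (A1 * η))
    (hD : D = -(A1 ^ 2 + 4 * A2) ^ 2 * (A2 * η ^ 2) - 8 * (A1 * η) ^ 3 - 27 * (η ^ 2) ^ 2
      + 9 * (A1 ^ 2 + 4 * A2) * (A1 * η) * η ^ 2) :
    c4 ^ 3 * (D / η ^ 4) = D * (D / η ^ 4 + 27) * (D / η ^ 4 + 3) ^ 3 := by
  subst hA2
  have hD' : D = η ^ 3 * (A1 ^ 3 - 27 * η) := by rw [hD]; ring
  have hc4' : c4 = A1 * (A1 ^ 3 - 24 * η) := by rw [hc4]; ring
  have h1 : D / η ^ 4 = (A1 ^ 3 - 27 * η) / η := by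
    rw [hD']; field_simp
  rw [h1, hD', hc4']
  field_simp
  ring

/-- Algebraic core of the 5-isogeny parametrisation. -/
theorem five_core {c4 D η A1 A2 : K} (hA2 : A2 ≠ 0) (h5 : A2 ^ 3 + η ^ 2 = A1 * A2 * η)
    (hc4 : c4 = (A1 ^ 2 + 4 * A2) ^ 2 - 24 * (A1 * η))
    (hD : D = -(A1 ^ 2 + 4 * A2) ^ 2 * (A2 * η ^ 2) - 8 * (A1 * η) ^ 3 - 27 * (η ^ 2) ^ 2
      + 9 * (A1 ^ 2 + 4 * A2) * (A1 * η) * η ^ 2) :
    c4 ^ 3 * (D / A2 ^ 6) = D * ((D / A2 ^ 6) ^ 2 + 10 * (D / A2 ^ 6) + 5) ^ 3 := by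
  obtain ⟨w, hw⟩ : ∃ w, η = w * A2 := ⟨η / A2, by field_simp⟩
  obtain ⟨v, hv⟩ : ∃ v, A1 = v + w := ⟨A1 - w, by ring⟩
  have hA2' : A2 = w * v := by
    have h : A2 ^ 2 * (A2 - w * v) = 0 := by
      rw [hw, hv] at h5
      linear_combination h5
    rcases mul_eq_zero.mp h with h | h
    · exact absurd (pow_eq_zero_iff (two_ne_zero) |>.mp h) hA2
    · linear_combination h
  have hw0 : w ≠ 0 := by
    rintro rfl; apply hA2; rw [hA2']; ring
  have hv0 : v ≠ 0 := by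
    rintro rfl; apply hA2; rw [hA2']; ring
  have hη' : η = w ^ 2 * v := by rw [hw, hA2']; ring
  have hD' : D = -(w ^ 5 * v ^ 5 * (v ^ 2 + 11 * v * w - w ^ 2)) := by
    rw [hD, hη', hv, hA2']; ring
  have hc4' : c4 = v ^ 4 + 12 * v ^ 3 * w + 14 * v ^ 2 * w ^ 2 - 12 * v * w ^ 3 + w ^ 4 := by
    rw [hc4, hη', hv, hA2']; ring
  have h1 : D / A2 ^ 6 = -(v ^ 2 + 11 * v * w - w ^ 2) / (v * w) := by
    rw [hD', hA2']; field_simp
  rw [h1, hD', hc4']
  field_simp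
  ring

section points

open WeierstrassCurve.Affine

variable [DecidableEq K] (W : Affine K)

/-- The data attached to the tangent line at an affine point which is not `2`-torsion. -/
theorem tangent_data {x y : K} (h : W.Equation x y) (hy : y ≠ W.negY x y) :
    ∃ η A1 A2 : K, η ≠ 0 ∧ η = 2 * y + W.a₁ * x + W.a₃ ∧
      A1 = W.a₁ + 2 * W.slope x x y y ∧
      A2 = x - W.addX x x (W.slope x x y y) ∧
      η ^ 2 = 4 * x ^ 3 + W.b₂ * x ^ 2 + 2 * W.b₄ * x + W.b₆ ∧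
      A2 * η ^ 2 = 3 * x ^ 4 + W.b₂ * x ^ 3 + 3 * W.b₄ * x ^ 2 + 3 * W.b₆ * x + W.b₈ ∧
      A1 * η = 6 * x ^ 2 + W.b₂ * x + W.b₄ ∧
      W.c₄ = (A1 ^ 2 + 4 * A2) ^ 2 - 24 * (A1 * η) ∧
      W.Δ = -(A1 ^ 2 + 4 * A2) ^ 2 * (A2 * η ^ 2) - 8 * (A1 * η) ^ 3 - 27 * (η ^ 2) ^ 2
        + 9 * (A1 ^ 2 + 4 * A2) * (A1 * η) * η ^ 2 := by
  have hη0 : 2 * y + W.a₁ * x + W.a₃ ≠ 0 := by
    intro h0; apply hy; simp only [negY]; linear_combination h0
  have hη' : y - W.negY x y = 2 * y + W.a₁ * x + W.a₃ := by simp only [negY]; ring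
  have hlam : W.slope x x y y * (2 * y + W.a₁ * x + W.a₃)
      = 3 * x ^ 2 + 2 * W.a₂ * x + W.a₄ - W.a₁ * y := by
    rw [slope_of_Y_ne rfl hy, hη']
    exact div_mul_cancel₀ _ hη0
  have hA2 : x - W.addX x x (W.slope x x y y)
      = 3 * x + W.a₂ - (W.slope x x y y) ^ 2 - W.a₁ * (W.slope x x y y) := by
    simp only [addX]; ring
  obtain ⟨h2, h4, h6, h8⟩ := local_coords W h rfl hlam rfl hA2
  obtain ⟨hc, hd⟩ := c4_Δ_local W h2 h4 h6 h8
  exact ⟨_, _, _, hη0, rfl, rfl, rfl, h6, h8, h4, hc, hd⟩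

/-- The chord through `P = (x, y)` and `2P`: the difference `x(3P) - x(2P)` in terms of the local
coordinates. -/
theorem chord_data {x y η A1 A2 : K} (hx : x ≠ W.addX x x (W.slope x x y y))
    (hη : η = 2 * y + W.a₁ * x + W.a₃) (hA1 : A1 = W.a₁ + 2 * W.slope x x y y)
    (hA2 : A2 = x - W.addX x x (W.slope x x y y)) :
    A2 ^ 2 * (W.addX x (W.addX x x (W.slope x x y y))
        (W.slope x (W.addX x x (W.slope x x y y)) y (W.addY x x y (W.slope x x y y)))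
      - W.addX x x (W.slope x x y y)) = A2 ^ 3 + η ^ 2 - A1 * A2 * η := by
  set lam := W.slope x x y y with hlam
  set x2 := W.addX x x lam with hx2
  set y2 := W.addY x x y lam with hy2
  set μ := W.slope x x2 y y2 with hμdef
  have hμ : μ * (x - x2) = y - y2 := by
    rw [hμdef, slope_of_X_ne hx]
    exact div_mul_cancel₀ _ (sub_ne_zero.mpr hx)
  have hy2' : y2 = -(lam * (x2 - x) + y) - W.a₁ * x2 - W.a₃ := by
    simp only [hy2, addY, negAddY, negY, ← hx2]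
  have hx2' : x2 = lam ^ 2 + W.a₁ * lam - W.a₂ - x - x := by
    simp only [hx2, addX]
  have hx3' : W.addX x x2 μ = μ ^ 2 + W.a₁ * μ - W.a₂ - x - x2 := rfl
  have hm : (μ - lam) * A2 = η - A1 * A2 := by
    rw [hA2, hA1, hη]
    linear_combination hμ - hy2'
  have hq : (μ - lam) ^ 2 + A1 * (μ - lam) + A2 = W.addX x x2 μ - x2 := by
    rw [hA2, hA1, hx3']
    linear_combination hx2'
  rw [← hq]
  linear_combination (η - A1 * A2 + (μ - lam) * A2 + A1 * A2) * hm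

/-- **3-torsion points.**  An affine point killed by `3` has `ψ₂² ≠ 0`, `ψ₃ = 0` at its
`x`-coordinate, and `τ = Δ / ψ₂⁴` satisfies the `X₀(3)` relation with `j = c₄³ / Δ`. -/
theorem three_torsion {x y : K} (h : W.Nonsingular x y) (h3 : (3 : ℕ) • Point.some x y h = 0) :
    4 * x ^ 3 + W.b₂ * x ^ 2 + 2 * W.b₄ * x + W.b₆ ≠ 0 ∧
    3 * x ^ 4 + W.b₂ * x ^ 3 + 3 * W.b₄ * x ^ 2 + 3 * W.b₆ * x + W.b₈ = 0 ∧
    W.c₄ ^ 3 * (W.Δ / (4 * x ^ 3 + W.b₂ * x ^ 2 + 2 * W.b₄ * x + W.b₆) ^ 2) =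
      W.Δ * (W.Δ / (4 * x ^ 3 + W.b₂ * x ^ 2 + 2 * W.b₄ * x + W.b₆) ^ 2 + 27) *
        (W.Δ / (4 * x ^ 3 + W.b₂ * x ^ 2 + 2 * W.b₄ * x + W.b₆) ^ 2 + 3) ^ 3 := by
  have hPP : Point.some x y h + Point.some x y h = -Point.some x y h := by
    apply eq_neg_of_add_eq_zero_left
    rw [← h3]; simp only [succ_nsmul, zero_nsmul, zero_add]
  by_cases hy : y = W.negY x y
  · rw [Point.add_self_of_Y_eq hy] at hPP
    exact absurd (neg_eq_zero.mp hPP.symm) (Point.some_ne_zero h)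
  · rw [Point.add_self_of_Y_ne hy, Point.neg_some, Point.some.injEq] at hPP
    obtain ⟨η, A1, A2, hη0, -, -, hA2, h6, h8, -, hc, hd⟩ := tangent_data W h.1 hy
    have hA2' : A2 = 0 := by rw [hA2, hPP.1, sub_self]
    rw [← h6, ← h8]
    refine ⟨pow_ne_zero 2 hη0, by rw [hA2', zero_mul], ?_⟩
    have := three_core hη0 hA2' hc hd
    rwa [← pow_mul]

/-- **5-torsion points.**  For an affine point `P = (x, y)` killed by `5`, the point `2P` is affine
with `x(2P) ≠ x(P)`, `x` is a root of (minus) the `5`-division polynomial, and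
`s = Δ / (x(P) - x(2P))⁶` satisfies the `X₀(5)` relation with `j = c₄³ / Δ`. -/
theorem five_torsion {x y : K} (h : W.Nonsingular x y) (h5 : (5 : ℕ) • Point.some x y h = 0) :
    ∃ (x2 y2 : K) (h2 : W.Nonsingular x2 y2),
      Point.some x y h + Point.some x y h = Point.some x2 y2 h2 ∧ x ≠ x2 ∧
      (3 * x ^ 4 + W.b₂ * x ^ 3 + 3 * W.b₄ * x ^ 2 + 3 * W.b₆ * x + W.b₈) ^ 3
        + (4 * x ^ 3 + W.b₂ * x ^ 2 + 2 * W.b₄ * x + W.b₆) ^ 4
        - (6 * x ^ 2 + W.b₂ * x + W.b₄)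
          * (3 * x ^ 4 + W.b₂ * x ^ 3 + 3 * W.b₄ * x ^ 2 + 3 * W.b₆ * x + W.b₈)
          * (4 * x ^ 3 + W.b₂ * x ^ 2 + 2 * W.b₄ * x + W.b₆) ^ 2 = 0 ∧
      W.c₄ ^ 3 * (W.Δ / (x - x2) ^ 6) =
        W.Δ * ((W.Δ / (x - x2) ^ 6) ^ 2 + 10 * (W.Δ / (x - x2) ^ 6) + 5) ^ 3 := by
  set P : W.Point := Point.some x y h with hP
  have hP0 : P ≠ 0 := Point.some_ne_zero h
  have h5' : P + P + P + P + P = 0 := by
    rw [← h5]; simp only [succ_nsmul, zero_nsmul, zero_add]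
  by_cases hy : y = W.negY x y
  · have h2 : P + P = 0 := Point.add_self_of_Y_eq hy
    exfalso; apply hP0
    have : P + P + P + P + P = (P + P) + (P + P) + P := by abel
    rw [this, h2, add_zero, zero_add] at h5'
    exact h5'
  · have hPP : P + P = Point.some _ _ (nonsingular_add h h fun hxy => hy hxy.right) :=
      Point.add_self_of_Y_ne hy
    obtain ⟨η, A1, A2, hη0, hη, hA1, hA2, h6, h8, h4, hc, hd⟩ := tangent_data W h.1 hy
    set lam := W.slope x x y y with hlam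
    set x2 := W.addX x x lam with hx2
    set y2 := W.addY x x y lam with hy2
    have hx : x ≠ x2 := by
      intro hx
      rcases (Point.X_eq_iff (h₁ := h)
        (h₂ := nonsingular_add h h fun hxy => hy hxy.right)).mp hx with h' | h'
      · rw [← hPP] at h'
        change P = P + P at h'
        apply hP0
        have : P + P = P + 0 := by rw [add_zero]; exact h'.symm
        exact add_left_cancel this
      · rw [← hPP] at h'
        change P = -(P + P) at h'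
        -- `P = -(P + P)`, so `3P = 0`, hence `2P = 0`
        have h3 : P + P + P = 0 := by
          have : P + P + P = (P + P) + P := by abel
          rw [this]; nth_rewrite 3 [h']; abel
        have h2 : P + P = 0 := by
          have : P + P + P + P + P = (P + P + P) + (P + P) := by abel
          rw [this, h3, zero_add] at h5'
          exact h5'
        rw [hPP] at h2
        exact Point.some_ne_zero _ h2
    have hA20 : A2 ≠ 0 := by rw [hA2]; exact sub_ne_zero.mpr hx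
    -- `P + 2P = -2P`
    have h3 : P + (P + P) = -(P + P) := by
      apply eq_neg_of_add_eq_zero_left
      rw [← h5']; abel
    rw [hPP] at h3
    change Point.some x y h + _ = _ at h3
    rw [Point.add_of_X_ne hx, Point.neg_some, Point.some.injEq] at h3
    have hx3 := h3.1
    have h5rel : A2 ^ 3 + η ^ 2 = A1 * A2 * η := by
      have := chord_data W hx hη hA1 hA2
      rw [hx3, sub_self, mul_zero] at this
      linear_combination -this
    refine ⟨x2, y2, _, hPP, hx, ?_, ?_⟩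
    · rw [← h8, ← h6, ← h4]
      linear_combination η ^ 6 * h5rel
    · have := five_core hA20 h5rel hc hd
      rwa [hA2] at this

omit [DecidableEq K] in
/-- At a nonsingular point with `η = 0` (a `2`-torsion point), `ψ₂² = 0` and `ψ₃ ≠ 0`. -/
theorem two_torsion_psi {x y : K} (h : W.Nonsingular x y) (hy : y = W.negY x y) :
    4 * x ^ 3 + W.b₂ * x ^ 2 + 2 * W.b₄ * x + W.b₆ = 0 ∧
    3 * x ^ 4 + W.b₂ * x ^ 3 + 3 * W.b₄ * x ^ 2 + 3 * W.b₆ * x + W.b₈ ≠ 0 := by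
  have hη : 2 * y + W.a₁ * x + W.a₃ = 0 := by
    simp only [negY] at hy; linear_combination hy
  obtain ⟨hE', hns⟩ := (nonsingular_iff' x y).mp h
  have hE := (equation_iff' x y).mp hE'
  have hL : W.a₁ * y - (3 * x ^ 2 + 2 * W.a₂ * x + W.a₄) ≠ 0 := by
    rcases hns with hns | hns
    · exact hns
    · exact absurd hη hns
  constructor
  · simp only [b₂, b₄, b₆]
    linear_combination (2 * y + W.a₁ * x + W.a₃) * hη - 4 * hE
  · intro h3
    apply hL
    have : (W.a₁ * y - (3 * x ^ 2 + 2 * W.a₂ * x + W.a₄)) ^ 2 = 0 := by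
      simp only [b₂, b₄, b₆, b₈] at h3
      linear_combination ((3 * x + W.a₂) * (2 * y + W.a₁ * x + W.a₃)
          - W.a₁ * (3 * x ^ 2 + 2 * W.a₂ * x + W.a₄ - W.a₁ * y)) * hη
        - (12 * x + W.a₁ ^ 2 + 4 * W.a₂) * hE - h3
    exact pow_eq_zero_iff (two_ne_zero) |>.mp this

/-- **Converse for 3-torsion**: an affine point whose `x`-coordinate is a root of `ψ₃` is
killed by `3`. -/
theorem three_torsion_of_root {x y : K} (h : W.Nonsingular x y)
    (hx : 3 * x ^ 4 + W.b₂ * x ^ 3 + 3 * W.b₄ * x ^ 2 + 3 * W.b₆ * x + W.b₈ = 0) :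
    (3 : ℕ) • Point.some x y h = 0 := by
  by_cases hy : y = W.negY x y
  · exact absurd hx (two_torsion_psi W h hy).2
  · obtain ⟨η, A1, A2, hη0, -, -, hA2, -, h8, -, -, -⟩ := tangent_data W h.1 hy
    have hA2' : A2 = 0 := by
      rw [hx] at h8
      rcases mul_eq_zero.mp h8 with h' | h'
      · exact h'
      · exact absurd (pow_eq_zero_iff (two_ne_zero) |>.mp h') hη0
    have hxx : W.addX x x (W.slope x x y y) = x := by
      rw [hA2'] at hA2; exact (sub_eq_zero.mp hA2.symm).symm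
    have hPP := Point.add_self_of_Y_ne (h₁ := h) hy
    obtain ⟨P, hP⟩ : ∃ P : W.Point, P = Point.some x y h := ⟨_, rfl⟩
    rw [← hP] at hPP ⊢
    have hP0 : P ≠ 0 := hP ▸ Point.some_ne_zero h
    rcases (Point.X_eq_iff (h₁ := nonsingular_add h h fun hxy => hy hxy.right)
        (h₂ := h)).mp hxx with h' | h'
    · rw [← hPP, ← hP] at h'
      exact absurd (add_left_cancel (h'.trans (add_zero P).symm)) hP0
    · rw [← hPP, ← hP] at h'
      have : (3 : ℕ) • P = (P + P) + P := by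
        simp only [succ_nsmul, zero_nsmul, zero_add]
      rw [this, h', neg_add_cancel]

/-- **Converse for 5-torsion**: an affine point whose `x`-coordinate is a root of the
`5`-division polynomial is killed by `5`. -/
theorem five_torsion_of_root {x y : K} (h : W.Nonsingular x y)
    (hx : (3 * x ^ 4 + W.b₂ * x ^ 3 + 3 * W.b₄ * x ^ 2 + 3 * W.b₆ * x + W.b₈) ^ 3
        + (4 * x ^ 3 + W.b₂ * x ^ 2 + 2 * W.b₄ * x + W.b₆) ^ 4
        - (6 * x ^ 2 + W.b₂ * x + W.b₄)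
          * (3 * x ^ 4 + W.b₂ * x ^ 3 + 3 * W.b₄ * x ^ 2 + 3 * W.b₆ * x + W.b₈)
          * (4 * x ^ 3 + W.b₂ * x ^ 2 + 2 * W.b₄ * x + W.b₆) ^ 2 = 0) :
    (5 : ℕ) • Point.some x y h = 0 := by
  by_cases hy : y = W.negY x y
  · exfalso
    obtain ⟨h6, h8⟩ := two_torsion_psi W h hy
    rw [h6] at hx
    apply h8
    have : (3 * x ^ 4 + W.b₂ * x ^ 3 + 3 * W.b₄ * x ^ 2 + 3 * W.b₆ * x + W.b₈) ^ 3 = 0 := by
      linear_combination hx
    exact pow_eq_zero_iff (three_ne_zero) |>.mp this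
  · obtain ⟨η, A1, A2, hη0, hη, hA1, hA2, h6, h8, h4, -, -⟩ := tangent_data W h.1 hy
    rw [← h8, ← h6, ← h4] at hx
    have h5rel : A2 ^ 3 + η ^ 2 - A1 * A2 * η = 0 := by
      have : η ^ 6 * (A2 ^ 3 + η ^ 2 - A1 * A2 * η) = 0 := by linear_combination hx
      rcases mul_eq_zero.mp this with h' | h'
      · exact absurd (pow_eq_zero_iff (by norm_num) |>.mp h') hη0
      · exact h'
    have hA20 : A2 ≠ 0 := by
      rintro rfl
      apply hη0
      have : η ^ 2 = 0 := by linear_combination h5rel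
      exact pow_eq_zero_iff (two_ne_zero) |>.mp this
    have hxne : x ≠ W.addX x x (W.slope x x y y) := by
      intro h'; apply hA20; rw [hA2, ← h', sub_self]
    have hch := chord_data W hxne hη hA1 hA2
    rw [h5rel] at hch
    have hx3 : W.addX x (W.addX x x (W.slope x x y y))
        (W.slope x (W.addX x x (W.slope x x y y)) y (W.addY x x y (W.slope x x y y)))
        = W.addX x x (W.slope x x y y) := by
      rcases mul_eq_zero.mp hch with h' | h'
      · exact absurd (pow_eq_zero_iff (two_ne_zero) |>.mp h') hA20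
      · exact sub_eq_zero.mp h'
    have hPP := Point.add_self_of_Y_ne (h₁ := h) hy
    have hPQ := Point.add_of_X_ne (h₁ := h)
      (h₂ := nonsingular_add h h fun hxy => hy hxy.right) hxne
    obtain ⟨P, hP⟩ : ∃ P : W.Point, P = Point.some x y h := ⟨_, rfl⟩
    rw [← hP] at hPP hPQ ⊢
    obtain ⟨Q, hQ⟩ : ∃ Q : W.Point, Q = P + P := ⟨_, rfl⟩
    rw [← hPP, ← hQ] at hPQ
    have hP0 : P ≠ 0 := hP ▸ Point.some_ne_zero h
    have h5 : (5 : ℕ) • P = (P + Q) + Q := by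
      rw [hQ]; simp only [succ_nsmul, zero_nsmul, zero_add]; abel
    rcases (Point.X_eq_iff (h₁ := nonsingular_add h
        (nonsingular_add h h fun hxy => hy hxy.right) fun hxy => hxne hxy.left)
        (h₂ := nonsingular_add h h fun hxy => hy hxy.right)).mp hx3 with h' | h'
    · rw [← hPQ, ← hPP, ← hQ] at h'
      exact absurd (add_right_cancel (h'.trans (zero_add Q).symm)) hP0
    · rw [← hPQ, ← hPP, ← hQ] at h'
      rw [h5, h', neg_add_cancel]

end points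

end Fermat.Agent.S51
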