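/-
Division polynomials `ψ₃`, `ψ₅` in `x`, existence of `3`- and `5`-torsion points over an
algebraically closed field, and the bounds `#E[3] ≤ 9`, `#E[5] ≤ 25` (helper module for S51).
-/
import Fermat.Agent.S51.Torsion

set_option autoImplicit false

namespace Fermat.Agent.S51

open WeierstrassCurve Polynomial

variable {K : Type*} [Field K]

/-- (Minus) the `5`-division polynomial of a Weierstrass curve, as a polynomial in `x`. -/
noncomputable def psi5Poly (W : WeierstrassCurve K) : K[X] :=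
  W.Ψ₃ ^ 3 + W.Ψ₂Sq ^ 4 - (6 * X ^ 2 + C W.b₂ * X + C W.b₄) * W.Ψ₃ * W.Ψ₂Sq ^ 2

theorem eval_Ψ₃ (W : WeierstrassCurve K) (x : K) :
    W.Ψ₃.eval x = 3 * x ^ 4 + W.b₂ * x ^ 3 + 3 * W.b₄ * x ^ 2 + 3 * W.b₆ * x + W.b₈ := by
  simp [Ψ₃]

theorem eval_Ψ₂Sq (W : WeierstrassCurve K) (x : K) :
    W.Ψ₂Sq.eval x = 4 * x ^ 3 + W.b₂ * x ^ 2 + 2 * W.b₄ * x + W.b₆ := by
  simp [Ψ₂Sq]

theorem eval_psi5Poly (W : WeierstrassCurve K) (x : K) :
    (psi5Poly W).eval x =
      (3 * x ^ 4 + W.b₂ * x ^ 3 + 3 * W.b₄ * x ^ 2 + 3 * W.b₆ * x + W.b₈) ^ 3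
        + (4 * x ^ 3 + W.b₂ * x ^ 2 + 2 * W.b₄ * x + W.b₆) ^ 4
        - (6 * x ^ 2 + W.b₂ * x + W.b₄)
          * (3 * x ^ 4 + W.b₂ * x ^ 3 + 3 * W.b₄ * x ^ 2 + 3 * W.b₆ * x + W.b₈)
          * (4 * x ^ 3 + W.b₂ * x ^ 2 + 2 * W.b₄ * x + W.b₆) ^ 2 := by
  simp [psi5Poly, eval_Ψ₃, eval_Ψ₂Sq]

theorem natDegree_psi5Poly_le (W : WeierstrassCurve K) : (psi5Poly W).natDegree ≤ 12 := by
  rw [psi5Poly, Ψ₃, Ψ₂Sq]
  compute_degree

theorem coeff_psi5Poly (W : WeierstrassCurve K) : (psi5Poly W).coeff 12 = -5 := by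
  rw [psi5Poly, Ψ₃, Ψ₂Sq]
  compute_degree!

theorem psi5Poly_ne_zero (W : WeierstrassCurve K) (h5 : (5 : K) ≠ 0) : psi5Poly W ≠ 0 := by
  intro h
  have := coeff_psi5Poly W
  rw [h, coeff_zero] at this
  exact h5 (by linear_combination this)

theorem natDegree_psi5Poly (W : WeierstrassCurve K) (h5 : (5 : K) ≠ 0) :
    (psi5Poly W).natDegree = 12 :=
  natDegree_eq_of_le_of_coeff_ne_zero (natDegree_psi5Poly_le W)
    (by rw [coeff_psi5Poly]; exact neg_ne_zero.mpr h5)

section points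

open WeierstrassCurve.Affine

variable [DecidableEq K] (W : Affine K)

theorem three_torsion_isRoot {x y : K} (h : W.Nonsingular x y)
    (h3 : (3 : ℕ) • Point.some x y h = 0) : W.Ψ₃.IsRoot x := by
  rw [IsRoot.def, eval_Ψ₃]; exact (three_torsion W h h3).2.1

theorem three_torsion_of_isRoot {x y : K} (h : W.Nonsingular x y) (hx : W.Ψ₃.IsRoot x) :
    (3 : ℕ) • Point.some x y h = 0 := by
  rw [IsRoot.def, eval_Ψ₃] at hx; exact three_torsion_of_root W h hx

theorem five_torsion_isRoot {x y : K} (h : W.Nonsingular x y)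
    (h5 : (5 : ℕ) • Point.some x y h = 0) : (psi5Poly W).IsRoot x := by
  rw [IsRoot.def, eval_psi5Poly]
  obtain ⟨x2, y2, h2, -, -, h', -⟩ := five_torsion W h h5
  exact h'

theorem five_torsion_of_isRoot {x y : K} (h : W.Nonsingular x y) (hx : (psi5Poly W).IsRoot x) :
    (5 : ℕ) • Point.some x y h = 0 := by
  rw [IsRoot.def, eval_psi5Poly] at hx; exact five_torsion_of_root W h hx

omit [DecidableEq K] in
/-- Over an algebraically closed field every `x` is the `x`-coordinate of a point. -/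
theorem exists_nonsingular_of_x [IsAlgClosed K] (hΔ : W.Δ ≠ 0) (x : K) :
    ∃ y, W.Nonsingular x y := by
  have hdeg : (X ^ 2 + C (W.a₁ * x + W.a₃) * X
      - C (x ^ 3 + W.a₂ * x ^ 2 + W.a₄ * x + W.a₆) : K[X]).degree ≠ 0 := by
    have : (X ^ 2 + C (W.a₁ * x + W.a₃) * X
      - C (x ^ 3 + W.a₂ * x ^ 2 + W.a₄ * x + W.a₆) : K[X]).natDegree = 2 := by
      compute_degree!
    exact ne_of_gt (natDegree_pos_iff_degree_pos.mp (by rw [this]; norm_num))
  obtain ⟨y, hy⟩ := IsAlgClosed.exists_root _ hdeg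
  refine ⟨y, (equation_iff_nonsingular_of_Δ_ne_zero hΔ).mp ?_⟩
  rw [equation_iff]
  simp only [IsRoot.def, eval_sub, eval_add, eval_pow, eval_X, eval_mul, eval_C] at hy
  linear_combination hy

/-- Existence of a nonzero `3`-torsion point over an algebraically closed field. -/
theorem exists_three_torsion [IsAlgClosed K] (hΔ : W.Δ ≠ 0) (h3 : (3 : K) ≠ 0) :
    ∃ (x y : K) (h : W.Nonsingular x y), (3 : ℕ) • Point.some x y h = 0 := by
  have hdeg : (W.Ψ₃).degree ≠ 0 := by
    exact ne_of_gt (natDegree_pos_iff_degree_pos.mp (by rw [W.natDegree_Ψ₃ h3]; norm_num))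
  obtain ⟨x, hx⟩ := IsAlgClosed.exists_root _ hdeg
  obtain ⟨y, h⟩ := exists_nonsingular_of_x W hΔ x
  exact ⟨x, y, h, three_torsion_of_isRoot W h hx⟩

/-- Existence of a nonzero `5`-torsion point over an algebraically closed field. -/
theorem exists_five_torsion [IsAlgClosed K] (hΔ : W.Δ ≠ 0) (h5 : (5 : K) ≠ 0) :
    ∃ (x y : K) (h : W.Nonsingular x y), (5 : ℕ) • Point.some x y h = 0 := by
  have hdeg : (psi5Poly W).degree ≠ 0 := by
    exact ne_of_gt (natDegree_pos_iff_degree_pos.mp (by rw [natDegree_psi5Poly W h5]; norm_num))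
  obtain ⟨x, hx⟩ := IsAlgClosed.exists_root _ hdeg
  obtain ⟨y, h⟩ := exists_nonsingular_of_x W hΔ x
  exact ⟨x, y, h, five_torsion_of_isRoot W h hx⟩

/-- The `x`-coordinate of a point (junk value `0` at infinity). -/
def torsX : W.Point → K
  | .zero => 0
  | .some x _ _ => x

/-- The `y`-coordinate of a point (junk value `0` at infinity). -/
def torsY : W.Point → K
  | .zero => 0
  | .some _ y _ => y

omit [DecidableEq K] in
@[simp] theorem torsX_some {x y : K} (h : W.Nonsingular x y) : torsX W (Point.some x y h) = x := rfl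

omit [DecidableEq K] in
@[simp] theorem torsY_some {x y : K} (h : W.Nonsingular x y) : torsY W (Point.some x y h) = y := rfl

/-- **Counting lemma**: the affine points whose `x`-coordinate is a root of a nonzero polynomial
`p` form a finite set with at most `2 * deg p` elements. -/
theorem finite_points_of_isRoot (p : K[X]) (hp : p ≠ 0) :
    {P : W.Point | ∃ (x y : K) (h : W.Nonsingular x y), P = Point.some x y h ∧ p.IsRoot x}.Finite ∧
    {P : W.Point | ∃ (x y : K) (h : W.Nonsingular x y),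
      P = Point.some x y h ∧ p.IsRoot x}.ncard ≤ 2 * p.natDegree := by
  classical
  set S : Set W.Point :=
    {P : W.Point | ∃ (x y : K) (h : W.Nonsingular x y), P = Point.some x y h ∧ p.IsRoot x}
  let g : K → K := fun x => Classical.epsilon (fun y => W.Equation x y)
  let f : W.Point → K × Bool := fun P => (torsX W P, decide (torsY W P = g (torsX W P)))
  let T : Finset (K × Bool) := p.roots.toFinset ×ˢ (Finset.univ : Finset Bool)
  have hmaps : Set.MapsTo f S (T : Set (K × Bool)) := by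
    rintro P ⟨x, y, h, rfl, hx⟩
    simp only [f, T, Finset.coe_product, Set.mem_prod, torsX_some, Finset.mem_coe,
      Multiset.mem_toFinset, Finset.coe_univ, Set.mem_univ, and_true]
    exact (mem_roots hp).mpr hx
  have hinj : Set.InjOn f S := by
    rintro P ⟨x, y, h, rfl, hx⟩ Q ⟨x', y', h', rfl, hx'⟩ hPQ
    simp only [f, torsX_some, torsY_some, Prod.mk.injEq] at hPQ
    obtain ⟨rfl, hyy'⟩ := hPQ
    have hyy : (y = g x ↔ y' = g x) := decide_eq_decide.mp hyy'
    have hg : W.Equation x (g x) := Classical.epsilon_spec (p := fun y => W.Equation x y) ⟨y, h.1⟩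
    have hy : y = y' := by
      rcases Y_eq_of_X_eq h.1 hg rfl with h1 | h1
      · rw [h1]; exact (hyy.mp h1).symm
      · rcases Y_eq_of_X_eq h'.1 hg rfl with h2 | h2
        · rw [hyy.mpr h2, h2]
        · rw [h1, h2]
    subst hy
    rfl
  refine ⟨Set.Finite.of_injOn hmaps hinj T.finite_toSet, ?_⟩
  calc S.ncard ≤ (T : Set (K × Bool)).ncard :=
        Set.ncard_le_ncard_of_injOn f hmaps hinj T.finite_toSet
    _ = T.card := Set.ncard_coe_finset T
    _ = p.roots.toFinset.card * 2 := by simp [T]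
    _ ≤ Multiset.card p.roots * 2 := Nat.mul_le_mul_right _ (Multiset.toFinset_card_le _)
    _ ≤ p.natDegree * 2 := Nat.mul_le_mul_right _ (card_roots' p)
    _ = 2 * p.natDegree := mul_comm _ _

/-- The `3`-torsion points form a finite set with at most `9` elements. -/
theorem finite_three_torsion (h3 : (3 : K) ≠ 0) :
    {P : W.Point | (3 : ℕ) • P = 0}.Finite ∧ {P : W.Point | (3 : ℕ) • P = 0}.ncard ≤ 9 := by
  obtain ⟨hfin, hcard⟩ := finite_points_of_isRoot W W.Ψ₃ (W.Ψ₃_ne_zero h3)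
  have hsub : {P : W.Point | (3 : ℕ) • P = 0} ⊆ insert 0
      {P : W.Point | ∃ (x y : K) (h : W.Nonsingular x y),
        P = Point.some x y h ∧ W.Ψ₃.IsRoot x} := by
    rintro (_ | ⟨x, y, h⟩) hP
    · exact Set.mem_insert _ _
    · exact Set.mem_insert_of_mem _ ⟨x, y, h, rfl, three_torsion_isRoot W h hP⟩
  refine ⟨(hfin.insert 0).subset hsub, ?_⟩
  calc _ ≤ _ := Set.ncard_le_ncard hsub (hfin.insert 0)
    _ ≤ _ + 1 := Set.ncard_insert_le _ _
    _ ≤ 2 * W.Ψ₃.natDegree + 1 := Nat.add_le_add_right hcard 1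
    _ ≤ 2 * 4 + 1 := by have := W.natDegree_Ψ₃_le; omega
    _ = 9 := rfl

/-- The `5`-torsion points form a finite set with at most `25` elements. -/
theorem finite_five_torsion (h5 : (5 : K) ≠ 0) :
    {P : W.Point | (5 : ℕ) • P = 0}.Finite ∧ {P : W.Point | (5 : ℕ) • P = 0}.ncard ≤ 25 := by
  obtain ⟨hfin, hcard⟩ := finite_points_of_isRoot W (psi5Poly W) (psi5Poly_ne_zero W h5)
  have hsub : {P : W.Point | (5 : ℕ) • P = 0} ⊆ insert 0
      {P : W.Point | ∃ (x y : K) (h : W.Nonsingular x y),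
        P = Point.some x y h ∧ (psi5Poly W).IsRoot x} := by
    rintro (_ | ⟨x, y, h⟩) hP
    · exact Set.mem_insert _ _
    · exact Set.mem_insert_of_mem _ ⟨x, y, h, rfl, five_torsion_isRoot W h hP⟩
  refine ⟨(hfin.insert 0).subset hsub, ?_⟩
  calc _ ≤ _ := Set.ncard_le_ncard hsub (hfin.insert 0)
    _ ≤ _ + 1 := Set.ncard_insert_le _ _
    _ ≤ 2 * (psi5Poly W).natDegree + 1 := Nat.add_le_add_right hcard 1
    _ ≤ 2 * 12 + 1 := by have := natDegree_psi5Poly_le W; omega
    _ = 25 := rfl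

/-! ### The same statements for `Submodule.torsionBy` -/

theorem coe_torsionBy_nat (n : ℕ) :
    ((Submodule.torsionBy ℤ W.Point ((n : ℕ) : ℤ) : Submodule ℤ W.Point) : Set W.Point)
      = {P : W.Point | n • P = 0} := by
  ext P
  simp only [SetLike.mem_coe, Submodule.mem_torsionBy_iff, natCast_zsmul, Set.mem_ofPred_eq]

theorem finite_torsionBy_three (h3 : (3 : K) ≠ 0) :
    Finite (Submodule.torsionBy ℤ W.Point ((3 : ℕ) : ℤ)) := by
  have := (finite_three_torsion W h3).1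
  rw [← coe_torsionBy_nat] at this
  exact Set.finite_coe_iff.mpr this

theorem card_torsionBy_three_le (h3 : (3 : K) ≠ 0) :
    Nat.card (Submodule.torsionBy ℤ W.Point ((3 : ℕ) : ℤ)) ≤ 9 := by
  have := (finite_three_torsion W h3).2
  rw [← coe_torsionBy_nat] at this
  exact (Nat.card_coe_set_eq _).trans_le this

theorem finite_torsionBy_five (h5 : (5 : K) ≠ 0) :
    Finite (Submodule.torsionBy ℤ W.Point ((5 : ℕ) : ℤ)) := by
  have := (finite_five_torsion W h5).1
  rw [← coe_torsionBy_nat] at this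
  exact Set.finite_coe_iff.mpr this

theorem card_torsionBy_five_le (h5 : (5 : K) ≠ 0) :
    Nat.card (Submodule.torsionBy ℤ W.Point ((5 : ℕ) : ℤ)) ≤ 25 := by
  have := (finite_five_torsion W h5).2
  rw [← coe_torsionBy_nat] at this
  exact (Nat.card_coe_set_eq _).trans_le this

theorem nontrivial_torsionBy_three [IsAlgClosed K] (hΔ : W.Δ ≠ 0) (h3 : (3 : K) ≠ 0) :
    Nontrivial (Submodule.torsionBy ℤ W.Point ((3 : ℕ) : ℤ)) := by
  obtain ⟨x, y, h, hP⟩ := exists_three_torsion W hΔ h3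
  refine ⟨⟨⟨Point.some x y h, ?_⟩, 0, ?_⟩⟩
  · rw [Submodule.mem_torsionBy_iff, natCast_zsmul]; exact hP
  · intro h0
    exact Point.some_ne_zero h (congrArg Subtype.val h0)

theorem nontrivial_torsionBy_five [IsAlgClosed K] (hΔ : W.Δ ≠ 0) (h5 : (5 : K) ≠ 0) :
    Nontrivial (Submodule.torsionBy ℤ W.Point ((5 : ℕ) : ℤ)) := by
  obtain ⟨x, y, h, hP⟩ := exists_five_torsion W hΔ h5
  refine ⟨⟨⟨Point.some x y h, ?_⟩, 0, ?_⟩⟩
  · rw [Submodule.mem_torsionBy_iff, natCast_zsmul]; exact hP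
  · intro h0
    exact Point.some_ne_zero h (congrArg Subtype.val h0)

end points

end Fermat.Agent.S51
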