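import Mathlib
import Fermat.Prelude.Def_FLTPrelim_GaloisRep
import Fermat.Agent.S51.TorsionPoly

/-!
# Galois glue for S51: stable lines in `E[p]`

For a Weierstrass curve `W` over `ℚ`, a field `K ⊇ ℚ` and a prime `p` such that `E(K)[p]` is
finite of cardinality `< p ^ 3`, every Galois-stable proper nonzero `ZMod p`-submodule `N` of
`E(K)[p]` is a line, so every automorphism multiplies a generator by a scalar in `1, …, p - 1`.
-/

set_option autoImplicit false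

open WeierstrassCurve WeierstrassCurve.Affine WeierstrassCurve.Affine.Point

namespace Fermat.Agent.S51

section glue

variable {K : Type*} [Field K] [Algebra ℚ K] [DecidableEq K]

/-- (G1) a stable proper nonzero submodule is a line, and Galois acts on a generator through
multiplication by `k ∈ {1, …, p - 1}`. -/
theorem galoisGlue_exists_smul_eq (W : WeierstrassCurve ℚ) (p : ℕ) [hp : Fact p.Prime]
    [Finite (Submodule.torsionBy ℤ (W⁄K).Point ((p : ℕ) : ℤ))]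
    (hcard : Nat.card (Submodule.torsionBy ℤ (W⁄K).Point ((p : ℕ) : ℤ)) < p ^ 3)
    (N : Submodule (ZMod p) (Submodule.torsionBy ℤ (W⁄K).Point ((p : ℕ) : ℤ)))
    (hN : IsGaloisStable ℚ N) (h0 : N ≠ ⊥) (h1 : N ≠ ⊤) :
    ∃ P : Submodule.torsionBy ℤ (W⁄K).Point ((p : ℕ) : ℤ), P ∈ N ∧ P ≠ 0 ∧
      ∀ σ : K ≃ₐ[ℚ] K, ∃ k : ℕ, 0 < k ∧ k < p ∧
        σ • (P : (W⁄K).Point) = k • (P : (W⁄K).Point) := by
  classical
  have hp' : p.Prime := hp.out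
  have : NeZero p := ⟨hp'.ne_zero⟩
  -- dimension count
  have hE := Module.natCard_eq_pow_finrank (K := ZMod p)
    (V := Submodule.torsionBy ℤ (W⁄K).Point ((p : ℕ) : ℤ))
  rw [Nat.card_zmod] at hE
  have hdimE : Module.finrank (ZMod p) (Submodule.torsionBy ℤ (W⁄K).Point ((p : ℕ) : ℤ)) < 3 := by
    rw [hE] at hcard
    exact (Nat.pow_lt_pow_iff_right hp'.one_lt).mp hcard
  have hfin : Module.Finite (ZMod p) (Submodule.torsionBy ℤ (W⁄K).Point ((p : ℕ) : ℤ)) :=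
    Module.Finite.of_finite
  have hdimN_lt : Module.finrank (ZMod p) N <
      Module.finrank (ZMod p) (Submodule.torsionBy ℤ (W⁄K).Point ((p : ℕ) : ℤ)) :=
    Submodule.finrank_lt h1
  have hNnt : Nontrivial N := Submodule.nontrivial_iff_ne_bot.mpr h0
  have hdimN_pos : 0 < Module.finrank (ZMod p) N := Module.finrank_pos
  have hdimN : Module.finrank (ZMod p) N = 1 := by omega
  obtain ⟨P, hPN, hP0⟩ := (Submodule.ne_bot_iff N).mp h0
  refine ⟨P, hPN, hP0, fun σ => ?_⟩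
  -- `N` is spanned by `P`
  have hspan : ∀ Q ∈ N, ∃ c : ZMod p, c • P = Q := by
    intro Q hQ
    have hP0' : (⟨P, hPN⟩ : N) ≠ 0 := fun h => hP0 (congrArg Subtype.val h)
    obtain ⟨c, hc⟩ := (finrank_eq_one_iff_of_nonzero' (⟨P, hPN⟩ : N) hP0').mp hdimN ⟨Q, hQ⟩
    exact ⟨c, congrArg Subtype.val hc⟩
  obtain ⟨c, hc⟩ := hspan (σ • P) (hN σ P hPN)
  have hc0 : c ≠ 0 := by
    rintro rfl
    rw [zero_smul] at hc
    apply hP0
    have h2 : σ⁻¹ • (σ • P) = P := inv_smul_smul σ P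
    rw [← h2, ← hc]
    exact smul_zero (A := Submodule.torsionBy ℤ (W⁄K).Point ((p : ℕ) : ℤ)) σ⁻¹
  refine ⟨c.val, ?_, ZMod.val_lt c, ?_⟩
  · exact Nat.pos_of_ne_zero (fun h => hc0 ((ZMod.val_eq_zero c).mp h))
  · have h3 : (c.val : ZMod p) • P = σ • P := by rw [ZMod.natCast_zmod_val]; exact hc
    rw [Nat.cast_smul_eq_nsmul] at h3
    have h4 := congrArg (Subtype.val : Submodule.torsionBy ℤ (W⁄K).Point ((p : ℕ) : ℤ) →
      (W⁄K).Point) h3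
    rw [AddSubmonoidClass.coe_nsmul] at h4
    exact h4.symm

/-- The Galois action on an affine point is coordinatewise. -/
theorem galoisGlue_smul_some (W : WeierstrassCurve ℚ) (σ : K ≃ₐ[ℚ] K) {x y : K}
    (h : (W⁄K).Nonsingular x y) :
    ∃ h' : (W⁄K).Nonsingular (σ x) (σ y),
      σ • (Point.some x y h : (W⁄K).Point) = Point.some (σ x) (σ y) h' :=
  ⟨_, Point.map_some σ.toAlgHom h⟩

/-- The Galois action commutes with multiplication by natural numbers. -/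
theorem galoisGlue_smul_nsmul (W : WeierstrassCurve ℚ) (σ : K ≃ₐ[ℚ] K) (n : ℕ)
    (P : (W⁄K).Point) : σ • (n • P) = n • (σ • P) :=
  map_nsmul (Point.map (W' := W) σ.toAlgHom) n P

omit [DecidableEq K] in
/-- (G2) elements fixed by the Galois group are rational. -/
theorem galoisGlue_rational_of_fixed [IsGalois ℚ K] (x : K) (h : ∀ σ : K ≃ₐ[ℚ] K, σ x = x) :
    ∃ r : ℚ, algebraMap ℚ K r = x :=
  (InfiniteGalois.mem_range_algebraMap_iff_fixed x).mpr h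

/-- (G3) a stable line in `E[3]` has a generator with rational `x`-coordinate. -/
theorem galoisGlue_three [IsGalois ℚ K] (W : WeierstrassCurve ℚ)
    [Finite (Submodule.torsionBy ℤ (W⁄K).Point ((3 : ℕ) : ℤ))]
    (hcard : Nat.card (Submodule.torsionBy ℤ (W⁄K).Point ((3 : ℕ) : ℤ)) < 27)
    (N : Submodule (ZMod 3) (Submodule.torsionBy ℤ (W⁄K).Point ((3 : ℕ) : ℤ)))
    (hN : IsGaloisStable ℚ N) (h0 : N ≠ ⊥) (h1 : N ≠ ⊤) :
    ∃ (x y : K) (h : (W⁄K).Nonsingular x y),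
      (3 : ℕ) • (Point.some x y h : (W⁄K).Point) = 0 ∧ ∃ r : ℚ, algebraMap ℚ K r = x := by
  have : Fact (Nat.Prime 3) := ⟨Nat.prime_three⟩
  obtain ⟨P, hPN, hP0, hσ⟩ := galoisGlue_exists_smul_eq W 3 (by norm_num; exact hcard) N hN h0 h1
  have hPval : (P : (W⁄K).Point) ≠ 0 := fun h => hP0 (Subtype.ext h)
  have h3 : (3 : ℕ) • (P : (W⁄K).Point) = 0 := by
    have h := P.2
    rw [Submodule.mem_torsionBy_iff] at h
    rwa [natCast_zsmul] at h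
  rcases hP : (P : (W⁄K).Point) with _ | ⟨x, y, h⟩
  · exact absurd hP hPval
  · rw [hP] at h3
    refine ⟨x, y, h, h3, galoisGlue_rational_of_fixed x fun σ => ?_⟩
    obtain ⟨k, hk0, hk3, hk⟩ := hσ σ
    rw [hP] at hk
    obtain ⟨h', hs⟩ := galoisGlue_smul_some W σ h
    rw [hs] at hk
    have h2 : (2 : ℕ) • (Point.some x y h : (W⁄K).Point) = -Point.some x y h := by
      rw [eq_neg_iff_add_eq_zero, ← succ_nsmul]
      exact h3
    interval_cases k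
    · rw [one_nsmul] at hk
      injection hk
    · rw [h2, Point.neg_some] at hk
      injection hk

/-- (G5) a stable line in `E[5]`: a generator `P = (x₁, y₁)` with `2P = (x₂, y₂)` such that every
automorphism either fixes or swaps `x₁` and `x₂`. -/
theorem galoisGlue_five [IsGalois ℚ K] (W : WeierstrassCurve ℚ)
    [Finite (Submodule.torsionBy ℤ (W⁄K).Point ((5 : ℕ) : ℤ))]
    (hcard : Nat.card (Submodule.torsionBy ℤ (W⁄K).Point ((5 : ℕ) : ℤ)) < 125)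
    (N : Submodule (ZMod 5) (Submodule.torsionBy ℤ (W⁄K).Point ((5 : ℕ) : ℤ)))
    (hN : IsGaloisStable ℚ N) (h0 : N ≠ ⊥) (h1 : N ≠ ⊤) :
    ∃ (x₁ y₁ x₂ y₂ : K) (h₁ : (W⁄K).Nonsingular x₁ y₁) (h₂ : (W⁄K).Nonsingular x₂ y₂),
      (5 : ℕ) • (Point.some x₁ y₁ h₁ : (W⁄K).Point) = 0 ∧
      (2 : ℕ) • (Point.some x₁ y₁ h₁ : (W⁄K).Point) = Point.some x₂ y₂ h₂ ∧
      ∀ σ : K ≃ₐ[ℚ] K, (σ x₁ = x₁ ∧ σ x₂ = x₂) ∨ (σ x₁ = x₂ ∧ σ x₂ = x₁) := by
  have : Fact (Nat.Prime 5) := ⟨Nat.prime_five⟩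
  obtain ⟨P, hPN, hP0, hσ⟩ := galoisGlue_exists_smul_eq W 5 (by norm_num; exact hcard) N hN h0 h1
  have hPval : (P : (W⁄K).Point) ≠ 0 := fun h => hP0 (Subtype.ext h)
  have h5 : (5 : ℕ) • (P : (W⁄K).Point) = 0 := by
    have h := P.2
    rw [Submodule.mem_torsionBy_iff] at h
    rwa [natCast_zsmul] at h
  rcases hP : (P : (W⁄K).Point) with _ | ⟨x₁, y₁, h₁⟩
  · exact absurd hP hPval
  rw [hP] at h5
  set Q : (W⁄K).Point := Point.some x₁ y₁ h₁ with hQ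
  have e4 : (4 : ℕ) • Q = -Q := by
    rw [eq_neg_iff_add_eq_zero, ← succ_nsmul]
    exact h5
  have e3 : (3 : ℕ) • Q = -((2 : ℕ) • Q) := by
    rw [eq_neg_iff_add_eq_zero, ← add_nsmul]
    exact h5
  have e6 : (6 : ℕ) • Q = Q := by
    rw [show (6 : ℕ) = 5 + 1 from rfl, add_nsmul, h5, zero_add, one_nsmul]
  have e8 : (8 : ℕ) • Q = (3 : ℕ) • Q := by
    rw [show (8 : ℕ) = 5 + 3 from rfl, add_nsmul, h5, zero_add]
  have h2ne : (2 : ℕ) • Q ≠ 0 := by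
    intro h2
    have : (4 : ℕ) • Q = 0 := by
      rw [show (4 : ℕ) = 2 + 2 from rfl, add_nsmul, h2, add_zero]
    rw [e4, neg_eq_zero] at this
    exact Point.some_ne_zero h₁ this
  rcases hR : (2 : ℕ) • Q with _ | ⟨x₂, y₂, h₂⟩
  · exact absurd hR h2ne
  refine ⟨x₁, y₁, x₂, y₂, h₁, h₂, h5, hR, fun σ => ?_⟩
  obtain ⟨k, hk0, hk5, hk⟩ := hσ σ
  rw [hP] at hk
  obtain ⟨h₁', hs₁⟩ := galoisGlue_smul_some W σ h₁
  obtain ⟨h₂', hs₂⟩ := galoisGlue_smul_some W σ h₂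
  -- the action on `2 • Q`
  have hk2 : (Point.some (σ x₂) (σ y₂) h₂' : (W⁄K).Point) = (2 : ℕ) • (k • Q) := by
    rw [← hs₂, ← hR, galoisGlue_smul_nsmul, hk]
  rw [hs₁] at hk
  interval_cases k
  · left
    rw [one_nsmul] at hk hk2
    rw [hR] at hk2
    refine ⟨?_, ?_⟩
    · injection hk
    · injection hk2
  · right
    rw [hR] at hk
    rw [← mul_nsmul, show (2 : ℕ) * 2 = 4 from rfl, e4, hQ, Point.neg_some] at hk2
    refine ⟨?_, ?_⟩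
    · injection hk
    · injection hk2
  · right
    rw [e3, hR, Point.neg_some] at hk
    rw [← mul_nsmul, show (3 : ℕ) * 2 = 6 from rfl, e6] at hk2
    refine ⟨?_, ?_⟩
    · injection hk
    · injection hk2
  · left
    rw [e4, hQ, Point.neg_some] at hk
    rw [← mul_nsmul, show (4 : ℕ) * 2 = 8 from rfl, e8, e3, hR, Point.neg_some] at hk2
    refine ⟨?_, ?_⟩
    · injection hk
    · injection hk2

omit [DecidableEq K] in
/-- Base change of the invariants. -/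
theorem galoisGlue_baseChange_invariants (W : WeierstrassCurve ℚ) :
    (W⁄K).c₄ = algebraMap ℚ K W.c₄ ∧ (W⁄K).Δ = algebraMap ℚ K W.Δ ∧
    (W⁄K).b₂ = algebraMap ℚ K W.b₂ ∧ (W⁄K).b₄ = algebraMap ℚ K W.b₄ ∧
    (W⁄K).b₆ = algebraMap ℚ K W.b₆ ∧ (W⁄K).b₈ = algebraMap ℚ K W.b₈ :=
  ⟨WeierstrassCurve.map_c₄ W _, WeierstrassCurve.map_Δ W _, WeierstrassCurve.map_b₂ W _,
    WeierstrassCurve.map_b₄ W _, WeierstrassCurve.map_b₆ W _, WeierstrassCurve.map_b₈ W _⟩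

/-- `reducible_three`, given the cardinality bound and the pointwise torsion identity. -/
theorem galoisGlue_reducible_three_of [IsGalois ℚ K] (W : WeierstrassCurve ℚ) (hΔ : W.Δ ≠ 0)
    [Finite (Submodule.torsionBy ℤ (W⁄K).Point ((3 : ℕ) : ℤ))]
    (hcard : Nat.card (Submodule.torsionBy ℤ (W⁄K).Point ((3 : ℕ) : ℤ)) < 27)
    (hT : ∀ (x y : K) (h : (W⁄K).Nonsingular x y),
      (3 : ℕ) • (Point.some x y h : (W⁄K).Point) = 0 →
        4 * x ^ 3 + (W⁄K).b₂ * x ^ 2 + 2 * (W⁄K).b₄ * x + (W⁄K).b₆ ≠ 0 ∧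
        (W⁄K).c₄ ^ 3 * ((W⁄K).Δ / (4 * x ^ 3 + (W⁄K).b₂ * x ^ 2 + 2 * (W⁄K).b₄ * x + (W⁄K).b₆) ^ 2) =
          (W⁄K).Δ * (((W⁄K).Δ / (4 * x ^ 3 + (W⁄K).b₂ * x ^ 2 + 2 * (W⁄K).b₄ * x + (W⁄K).b₆) ^ 2
            + 27) *
            ((W⁄K).Δ / (4 * x ^ 3 + (W⁄K).b₂ * x ^ 2 + 2 * (W⁄K).b₄ * x + (W⁄K).b₆) ^ 2 + 3) ^ 3))
    (N : Submodule (ZMod 3) (Submodule.torsionBy ℤ (W⁄K).Point ((3 : ℕ) : ℤ)))
    (hN : IsGaloisStable ℚ N) (h0 : N ≠ ⊥) (h1 : N ≠ ⊤) :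
    ∃ τ : ℚ, τ ≠ 0 ∧ W.c₄ ^ 3 * τ = W.Δ * ((τ + 27) * (τ + 3) ^ 3) := by
  obtain ⟨x, y, h, h3, r, hr⟩ := galoisGlue_three W hcard N hN h0 h1
  obtain ⟨hψ, hid⟩ := hT x y h h3
  obtain ⟨hc₄, hD, hb₂, hb₄, hb₆, -⟩ := galoisGlue_baseChange_invariants (K := K) W
  rw [hc₄, hD, hb₂, hb₄, hb₆, ← hr] at hid
  rw [hb₂, hb₄, hb₆, ← hr] at hψ
  set ψ : ℚ := 4 * r ^ 3 + W.b₂ * r ^ 2 + 2 * W.b₄ * r + W.b₆ with hψdef
  have hψK : 4 * (algebraMap ℚ K r) ^ 3 + algebraMap ℚ K W.b₂ * (algebraMap ℚ K r) ^ 2 +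
      2 * algebraMap ℚ K W.b₄ * algebraMap ℚ K r + algebraMap ℚ K W.b₆ = algebraMap ℚ K ψ := by
    rw [hψdef]
    simp only [map_add, map_mul, map_pow, map_ofNat]
  rw [hψK] at hid hψ
  have hψ0 : ψ ≠ 0 := by
    intro h0
    rw [h0, _root_.map_zero] at hψ
    exact hψ rfl
  refine ⟨W.Δ / ψ ^ 2, div_ne_zero hΔ (pow_ne_zero 2 hψ0), ?_⟩
  apply (algebraMap ℚ K).injective
  simp only [map_add, map_mul, map_pow, map_ofNat, map_div₀]
  exact hid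

/-- `reducible_five`, given the cardinality bound and the pointwise torsion identity. -/
theorem galoisGlue_reducible_five_of [IsGalois ℚ K] (W : WeierstrassCurve ℚ) (hΔ : W.Δ ≠ 0)
    [Finite (Submodule.torsionBy ℤ (W⁄K).Point ((5 : ℕ) : ℤ))]
    (hcard : Nat.card (Submodule.torsionBy ℤ (W⁄K).Point ((5 : ℕ) : ℤ)) < 125)
    (hT : ∀ (x₁ y₁ x₂ y₂ : K) (h₁ : (W⁄K).Nonsingular x₁ y₁) (h₂ : (W⁄K).Nonsingular x₂ y₂),
      (5 : ℕ) • (Point.some x₁ y₁ h₁ : (W⁄K).Point) = 0 →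
      (2 : ℕ) • (Point.some x₁ y₁ h₁ : (W⁄K).Point) = Point.some x₂ y₂ h₂ →
        x₁ ≠ x₂ ∧
        (W⁄K).c₄ ^ 3 * ((W⁄K).Δ / (x₁ - x₂) ^ 6) =
          (W⁄K).Δ * (((W⁄K).Δ / (x₁ - x₂) ^ 6) ^ 2 + 10 * ((W⁄K).Δ / (x₁ - x₂) ^ 6) + 5) ^ 3)
    (N : Submodule (ZMod 5) (Submodule.torsionBy ℤ (W⁄K).Point ((5 : ℕ) : ℤ)))
    (hN : IsGaloisStable ℚ N) (h0 : N ≠ ⊥) (h1 : N ≠ ⊤) :
    ∃ s : ℚ, s ≠ 0 ∧ W.c₄ ^ 3 * s = W.Δ * (s ^ 2 + 10 * s + 5) ^ 3 := by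
  obtain ⟨x₁, y₁, x₂, y₂, h₁, h₂, h5, h2, hσ⟩ := galoisGlue_five W hcard N hN h0 h1
  obtain ⟨hne, hid⟩ := hT x₁ y₁ x₂ y₂ h₁ h₂ h5 h2
  obtain ⟨hc₄, hD, -, -, -, -⟩ := galoisGlue_baseChange_invariants (K := K) W
  rw [hc₄, hD] at hid
  have hsub : x₁ - x₂ ≠ 0 := sub_ne_zero.mpr hne
  -- `s` is Galois-fixed
  obtain ⟨s, hs⟩ := galoisGlue_rational_of_fixed (algebraMap ℚ K W.Δ / (x₁ - x₂) ^ 6) (by
    intro σ
    rw [map_div₀, map_pow, map_sub, σ.commutes]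
    rcases hσ σ with ⟨e1, e2⟩ | ⟨e1, e2⟩
    · rw [e1, e2]
    · rw [e1, e2]
      congr 1
      ring)
  rw [← hs] at hid
  have hDK : algebraMap ℚ K W.Δ ≠ 0 := by
    intro h0
    exact hΔ ((algebraMap ℚ K).injective (by rw [h0, _root_.map_zero]))
  refine ⟨s, ?_, ?_⟩
  · rintro rfl
    rw [_root_.map_zero] at hs
    exact div_ne_zero hDK (pow_ne_zero 6 hsub) hs.symm
  · apply (algebraMap ℚ K).injective
    simp only [map_add, map_mul, map_pow, map_ofNat]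
    exact hid

/-- `reducible_three`, given only the cardinality bound. -/
theorem galoisGlue_reducible_three_of_card [IsGalois ℚ K] (W : WeierstrassCurve ℚ) (hΔ : W.Δ ≠ 0)
    [Finite (Submodule.torsionBy ℤ (W⁄K).Point ((3 : ℕ) : ℤ))]
    (hcard : Nat.card (Submodule.torsionBy ℤ (W⁄K).Point ((3 : ℕ) : ℤ)) < 27)
    (N : Submodule (ZMod 3) (Submodule.torsionBy ℤ (W⁄K).Point ((3 : ℕ) : ℤ)))
    (hN : IsGaloisStable ℚ N) (h0 : N ≠ ⊥) (h1 : N ≠ ⊤) :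
    ∃ τ : ℚ, τ ≠ 0 ∧ W.c₄ ^ 3 * τ = W.Δ * ((τ + 27) * (τ + 3) ^ 3) :=
  galoisGlue_reducible_three_of W hΔ hcard (fun x y h h3 => by
    obtain ⟨hψ, -, hid⟩ := three_torsion (W⁄K) h h3
    exact ⟨hψ, by rw [hid, mul_assoc]⟩) N hN h0 h1

/-- `reducible_five`, given only the cardinality bound. -/
theorem galoisGlue_reducible_five_of_card [IsGalois ℚ K] (W : WeierstrassCurve ℚ) (hΔ : W.Δ ≠ 0)
    [Finite (Submodule.torsionBy ℤ (W⁄K).Point ((5 : ℕ) : ℤ))]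
    (hcard : Nat.card (Submodule.torsionBy ℤ (W⁄K).Point ((5 : ℕ) : ℤ)) < 125)
    (N : Submodule (ZMod 5) (Submodule.torsionBy ℤ (W⁄K).Point ((5 : ℕ) : ℤ)))
    (hN : IsGaloisStable ℚ N) (h0 : N ≠ ⊥) (h1 : N ≠ ⊤) :
    ∃ s : ℚ, s ≠ 0 ∧ W.c₄ ^ 3 * s = W.Δ * (s ^ 2 + 10 * s + 5) ^ 3 :=
  galoisGlue_reducible_five_of W hΔ hcard (fun x₁ y₁ x₂ y₂ h₁ h₂ h5 h2 => by
    obtain ⟨x2, y2, h2', hadd, hne, -, hid⟩ := five_torsion (W⁄K) h₁ h5
    rw [← two_nsmul, h2] at hadd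
    obtain ⟨rfl, rfl⟩ := Point.some.inj hadd
    exact ⟨hne, hid⟩) N hN h0 h1

end glue

section final

variable {K : Type*} [Field K] [DecidableEq K] [Algebra ℚ K]

omit [DecidableEq K] in
theorem galoisGlue_baseChange_Δ_ne_zero (W : WeierstrassCurve ℚ) (hΔ : W.Δ ≠ 0) :
    (W⁄K).Δ ≠ 0 := by
  rw [(galoisGlue_baseChange_invariants (K := K) W).2.1]
  intro h0
  exact hΔ ((algebraMap ℚ K).injective (by rw [h0, _root_.map_zero]))

omit [DecidableEq K] in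
theorem galoisGlue_three_ne_zero : (3 : K) ≠ 0 := by
  have : CharZero K := algebraRat.charZero K
  norm_num

omit [DecidableEq K] in
theorem galoisGlue_five_ne_zero : (5 : K) ≠ 0 := by
  have : CharZero K := algebraRat.charZero K
  norm_num

variable [IsAlgClosed K] [IsGalois ℚ K]

omit [IsGalois ℚ K] in
/-- `E[3]` is nontrivial over an algebraically closed field. -/
theorem nontrivial_three (W : WeierstrassCurve ℚ) (hΔ : W.Δ ≠ 0) :
    Nontrivial (Submodule.torsionBy ℤ (W⁄K).Point ((3 : ℕ) : ℤ)) :=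
  nontrivial_torsionBy_three (W⁄K) (galoisGlue_baseChange_Δ_ne_zero W hΔ) galoisGlue_three_ne_zero

omit [IsGalois ℚ K] in
/-- `E[5]` is nontrivial over an algebraically closed field. -/
theorem nontrivial_five (W : WeierstrassCurve ℚ) (hΔ : W.Δ ≠ 0) :
    Nontrivial (Submodule.torsionBy ℤ (W⁄K).Point ((5 : ℕ) : ℤ)) :=
  nontrivial_torsionBy_five (W⁄K) (galoisGlue_baseChange_Δ_ne_zero W hΔ) galoisGlue_five_ne_zero

omit [IsAlgClosed K] in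
/-- A Galois-stable line in `E[3]` gives a rational point on the `X₀(3)` fibre equation. -/
theorem reducible_three (W : WeierstrassCurve ℚ) (hΔ : W.Δ ≠ 0)
    (N : Submodule (ZMod 3) (Submodule.torsionBy ℤ (W⁄K).Point ((3 : ℕ) : ℤ)))
    (hN : IsGaloisStable ℚ N) (h0 : N ≠ ⊥) (h1 : N ≠ ⊤) :
    ∃ τ : ℚ, τ ≠ 0 ∧ W.c₄ ^ 3 * τ = W.Δ * ((τ + 27) * (τ + 3) ^ 3) := by
  have hfin := finite_torsionBy_three (W⁄K) galoisGlue_three_ne_zero
  have hcard := card_torsionBy_three_le (W⁄K) galoisGlue_three_ne_zero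
  exact galoisGlue_reducible_three_of_card W hΔ (by omega) N hN h0 h1

omit [IsAlgClosed K] in
/-- A Galois-stable line in `E[5]` gives a rational point on the `X₀(5)` fibre equation. -/
theorem reducible_five (W : WeierstrassCurve ℚ) (hΔ : W.Δ ≠ 0)
    (N : Submodule (ZMod 5) (Submodule.torsionBy ℤ (W⁄K).Point ((5 : ℕ) : ℤ)))
    (hN : IsGaloisStable ℚ N) (h0 : N ≠ ⊥) (h1 : N ≠ ⊤) :
    ∃ s : ℚ, s ≠ 0 ∧ W.c₄ ^ 3 * s = W.Δ * (s ^ 2 + 10 * s + 5) ^ 3 := by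
  have hfin := finite_torsionBy_five (W⁄K) galoisGlue_five_ne_zero
  have hcard := card_torsionBy_five_le (W⁄K) galoisGlue_five_ne_zero
  exact galoisGlue_reducible_five_of_card W hΔ (by omega) N hN h0 h1

end final

end Fermat.Agent.S51
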