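import Mathlib

set_option autoImplicit false

namespace Fermat.Agent.S51

/-- If `A * c4 ^ 3 = 5 ^ e * B * Δ` with `e ∈ {1, 2}` and `5 ∤ A`, `5 ∤ B`, then `5` divides both
`c4` and `Δ`. -/
theorem noSemistable_five_dvd (A B c4 Δ : ℤ) (hA : ¬ (5 : ℤ) ∣ A) (hB : ¬ (5 : ℤ) ∣ B)
    (h : A * c4 ^ 3 = 5 * B * Δ ∨ A * c4 ^ 3 = 25 * B * Δ) :
    (5 : ℤ) ∣ c4 ∧ (5 : ℤ) ∣ Δ := by
  have hp : Prime (5 : ℤ) := by
    rw [Int.prime_iff_natAbs_prime]; norm_num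
  have h1 : (5 : ℤ) ∣ A * c4 ^ 3 := by
    rcases h with h | h
    · exact ⟨B * Δ, by rw [h]; ring⟩
    · exact ⟨5 * B * Δ, by rw [h]; ring⟩
  have h2 : (5 : ℤ) ∣ c4 := by
    rcases hp.dvd_or_dvd h1 with h3 | h3
    · exact absurd h3 hA
    · exact hp.dvd_of_dvd_pow h3
  refine ⟨h2, ?_⟩
  obtain ⟨k, rfl⟩ := h2
  have h4 : (5 : ℤ) ∣ B * Δ := by
    rcases h with h | h
    · refine ⟨5 * A * k ^ 3, ?_⟩
      have : (5 : ℤ) * (B * Δ) = 5 * (5 * (5 * A * k ^ 3)) := by linear_combination -h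
      exact mul_left_cancel₀ (by norm_num) this
    · refine ⟨A * k ^ 3, ?_⟩
      have : (25 : ℤ) * (B * Δ) = 25 * (5 * (A * k ^ 3)) := by linear_combination -h
      exact mul_left_cancel₀ (by norm_num) this
  rcases hp.dvd_or_dvd h4 with h5 | h5
  · exact absurd h5 hB
  · exact h5

/-- (D) none of the four exceptional tau is compatible with a semistable integral model. -/
theorem no_semistable (c4 Δ : ℤ) (hΔ : Δ ≠ 0)
    (hss : ∀ p : ℕ, p.Prime → (p : ℤ) ∣ Δ → ¬ (p : ℤ) ∣ c4) (τ : ℚ)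
    (hτ : τ = -729 / 32 ∨ τ = -2 ∨ τ = -729 / 2 ∨ τ = -32)
    (h : (c4 : ℚ) ^ 3 * τ = Δ * ((τ + 27) * (τ + 3) ^ 3)) : False := by
  have key : (5 : ℤ) ∣ c4 ∧ (5 : ℤ) ∣ Δ := by
    rcases hτ with rfl | rfl | rfl | rfl
    · -- τ = -729/32 : 32768 c4^3 = 5 * 211^3 * Δ
      refine noSemistable_five_dvd 32768 9393931 c4 Δ (by norm_num) (by norm_num) (Or.inl ?_)
      have h' : ((32768 * c4 ^ 3 : ℤ) : ℚ) = ((5 * 9393931 * Δ : ℤ) : ℚ) := by
        push_cast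
        linear_combination (-(32768 * 32 : ℚ) / 729) * h
      exact_mod_cast h'
    · -- τ = -2 : 2 c4^3 = -25 Δ
      refine noSemistable_five_dvd 2 (-1) c4 Δ (by norm_num) (by norm_num) (Or.inr ?_)
      have h' : ((2 * c4 ^ 3 : ℤ) : ℚ) = ((25 * (-1) * Δ : ℤ) : ℚ) := by
        push_cast
        linear_combination (-1 : ℚ) * h
      exact_mod_cast h'
    · -- τ = -729/2 : 8 c4^3 = -25 * 241^3 * Δ
      refine noSemistable_five_dvd 8 (-13997521) c4 Δ (by norm_num) (by norm_num) (Or.inr ?_)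
      have h' : ((8 * c4 ^ 3 : ℤ) : ℚ) = ((25 * (-13997521) * Δ : ℤ) : ℚ) := by
        push_cast
        linear_combination (-(16 : ℚ) / 729) * h
      exact_mod_cast h'
    · -- τ = -32 : 32 c4^3 = -5 * 29^3 * Δ
      refine noSemistable_five_dvd 32 (-24389) c4 Δ (by norm_num) (by norm_num) (Or.inl ?_)
      have h' : ((32 * c4 ^ 3 : ℤ) : ℚ) = ((5 * (-24389) * Δ : ℤ) : ℚ) := by
        push_cast
        linear_combination (-1 : ℚ) * h
      exact_mod_cast h'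
  exact hss 5 (by norm_num) (by exact_mod_cast key.2) (by exact_mod_cast key.1)

end Fermat.Agent.S51
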