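import Mathlib

set_option autoImplicit false

namespace Fermat.Agent.S51

namespace Leg81

/-- coprime integers with square product, the first positive: the first is a square. -/
theorem sq_of_coprime_pos {a b c : ℤ} (ha : 0 < a) (h : IsCoprime a b) (heq : a * b = c ^ 2) :
    ∃ a0 : ℤ, a = a0 ^ 2 := by
  obtain ⟨a0, h0 | h0⟩ := Int.sq_of_isCoprime h heq
  · exact ⟨a0, h0⟩
  · exfalso; nlinarith [sq_nonneg a0]

/-- splitting lemma: `u v w = m^2`, `u` coprime to `w`; then `u = g a^2`, `v = g v'` with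
`g = gcd(u,v)`, `a` coprime to `v'` and `v' w` a square. -/
theorem split_sq {u v w m : ℤ} (hu : 0 < u) (hv : 0 < v) (hw : 0 < w)
    (huw : IsCoprime u w) (h : u * v * w = m ^ 2) :
    ∃ g a v' e : ℤ, 0 < g ∧ g ∣ u ∧ g ∣ v ∧ u = g * a ^ 2 ∧ v = g * v' ∧ 0 < v' ∧
      IsCoprime a v' ∧ v' * w = e ^ 2 := by
  have hg0 : 0 < Int.gcd u v := Int.gcd_pos_of_ne_zero_left v hu.ne'
  obtain ⟨u', v', hcop, hu', hv'⟩ := Int.exists_gcd_one hg0
  set g : ℤ := (Int.gcd u v : ℤ) with hg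
  have hgpos : 0 < g := by rw [hg]; exact_mod_cast hg0
  have hu'pos : 0 < u' := by
    by_contra hneg
    push Not at hneg
    have : u' * g ≤ 0 := mul_nonpos_of_nonpos_of_nonneg hneg hgpos.le
    linarith
  have hv'pos : 0 < v' := by
    by_contra hneg
    push Not at hneg
    have : v' * g ≤ 0 := mul_nonpos_of_nonpos_of_nonneg hneg hgpos.le
    linarith
  have hcop' : IsCoprime u' v' := Int.isCoprime_iff_gcd_eq_one.mpr hcop
  -- g ∣ m
  have hgm : g ∣ m := by
    have h2 : g ^ 2 ∣ m ^ 2 := by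
      rw [← h, hu', hv']
      exact ⟨u' * v' * w, by ring⟩
    exact (Int.pow_dvd_pow_iff two_ne_zero).mp h2
  obtain ⟨m', hm'⟩ := hgm
  have h3 : u' * (v' * w) = m' ^ 2 := by
    have h4 : g ^ 2 * (u' * (v' * w)) = g ^ 2 * m' ^ 2 := by
      have : u * v * w = g ^ 2 * (u' * (v' * w)) := by rw [hu', hv']; ring
      rw [← this, h, hm']; ring
    exact mul_left_cancel₀ (pow_ne_zero 2 hgpos.ne') h4
  have hu'w : IsCoprime u' w := by
    rw [hu'] at huw
    exact IsCoprime.of_mul_left_left huw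
  have hc1 : IsCoprime u' (v' * w) := IsCoprime.mul_right hcop' hu'w
  obtain ⟨a, ha⟩ := sq_of_coprime_pos hu'pos hc1 h3
  obtain ⟨e, he⟩ := sq_of_coprime_pos (mul_pos hv'pos hw) hc1.symm (by rw [mul_comm]; exact h3)
  refine ⟨g, a, v', e, hgpos, ⟨u', by rw [hu']; ring⟩, ⟨v', by rw [hv']; ring⟩, ?_, ?_, hv'pos, ?_, he⟩
  · rw [hu', ha]; ring
  · rw [hv']; ring
  · rw [ha] at hcop'
    exact IsCoprime.of_mul_left_left (by rwa [pow_two] at hcop')

theorem sq_mod_three (z : ℤ) : z ^ 2 % 3 = 0 ∨ z ^ 2 % 3 = 1 := by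
  have h : z % 3 = 0 ∨ z % 3 = 1 ∨ z % 3 = 2 := by omega
  rcases h with h | h | h <;> simp [pow_two, Int.mul_emod, h]

theorem sq_mod_three_of_not_dvd (z : ℤ) (hz : ¬ (3 : ℤ) ∣ z) : z ^ 2 % 3 = 1 := by
  have h : z % 3 = 1 ∨ z % 3 = 2 := by omega
  rcases h with h | h <;> simp [pow_two, Int.mul_emod, h]

theorem sq_mod_eight_of_odd (z : ℤ) (hz : z % 2 = 1) : z ^ 2 % 8 = 1 := by
  have h : z % 8 = 1 ∨ z % 8 = 3 ∨ z % 8 = 5 ∨ z % 8 = 7 := by omega
  rcases h with h | h | h | h <;> simp [pow_two, Int.mul_emod, h]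

theorem sq_mod_four (z : ℤ) : z ^ 2 % 4 = 0 ∨ z ^ 2 % 4 = 1 := by
  have h : z % 4 = 0 ∨ z % 4 = 1 ∨ z % 4 = 2 ∨ z % 4 = 3 := by omega
  rcases h with h | h | h | h <;> simp [pow_two, Int.mul_emod, h]

theorem even_of_sq_mod_four (z : ℤ) (hz : z ^ 2 % 4 = 0) : z % 2 = 0 := by
  by_contra hodd
  have h1 : z % 2 = 1 := by omega
  have := sq_mod_eight_of_odd z h1
  omega

/-- The class `2` and `10` are excluded 2-adically. -/
theorem no_class_two (n k A B d : ℤ) (hd : d = 2 ∨ d = 10) (hcop : IsCoprime n k)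
    (h1 : n ^ 2 - k ^ 2 = d * A ^ 2) (h2 : n ^ 2 - 81 * k ^ 2 = d * B ^ 2) : False := by
  have hn2 := sq_mod_four n
  have hk2 := sq_mod_four k
  -- n and k are not both even
  have hnk : ¬ (n % 2 = 0 ∧ k % 2 = 0) := by
    rintro ⟨hn, hk⟩
    have h2n : (2 : ℤ) ∣ n := Int.dvd_of_emod_eq_zero hn
    have h2k : (2 : ℤ) ∣ k := Int.dvd_of_emod_eq_zero hk
    have hu : IsUnit (2 : ℤ) := hcop.isUnit_of_dvd' h2n h2k
    rw [Int.isUnit_iff] at hu
    omega
  -- parity: n ≡ k mod 2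
  have hpar : n % 2 = 1 ∧ k % 2 = 1 := by
    rcases Int.emod_two_eq_zero_or_one n with hn | hn <;>
      rcases Int.emod_two_eq_zero_or_one k with hk | hk
    · exact absurd ⟨hn, hk⟩ hnk
    · exfalso
      have e1 : n ^ 2 % 4 = 0 := by
        obtain ⟨t, ht⟩ := Int.dvd_of_emod_eq_zero hn
        have : n ^ 2 = 4 * t ^ 2 := by rw [ht]; ring
        rw [this]; omega
      have e2 := sq_mod_eight_of_odd k hk
      rcases hd with rfl | rfl <;> omega
    · exfalso
      have e1 := sq_mod_eight_of_odd n hn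
      have e2 : k ^ 2 % 4 = 0 := by
        obtain ⟨t, ht⟩ := Int.dvd_of_emod_eq_zero hk
        have : k ^ 2 = 4 * t ^ 2 := by rw [ht]; ring
        rw [this]; omega
      rcases hd with rfl | rfl <;> omega
    · exact ⟨hn, hk⟩
  have en := sq_mod_eight_of_odd n hpar.1
  have ek := sq_mod_eight_of_odd k hpar.2
  have hA4 : A ^ 2 % 4 = 0 := by rcases hd with rfl | rfl <;> omega
  have hB4 : B ^ 2 % 4 = 0 := by rcases hd with rfl | rfl <;> omega
  obtain ⟨A1, rfl⟩ := Int.dvd_of_emod_eq_zero (even_of_sq_mod_four A hA4)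
  obtain ⟨B1, rfl⟩ := Int.dvd_of_emod_eq_zero (even_of_sq_mod_four B hB4)
  have hA1 := sq_mod_four A1
  have hB1 := sq_mod_four B1
  have e3 : 80 * k ^ 2 = 4 * d * (A1 ^ 2 - B1 ^ 2) := by linear_combination h1 - h2
  rcases hd with rfl | rfl <;> omega

/-- Integer form of the class lemma for points with `x > 81`. -/
theorem classify_int (N D m : ℤ) (hD : 0 < D) (hN : 81 * D < N) (hcop : IsCoprime N D)
    (h : D * (N * (N - D) * (N - 81 * D)) = m ^ 2) :
    ∃ n k a : ℤ, N = n ^ 2 ∧ D = k ^ 2 ∧ (N - D = a ^ 2 ∨ N - D = 5 * a ^ 2) := by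
  have hN0 : 0 < N := by linarith
  have hND : 0 < N - D := by linarith
  have hN81 : 0 < N - 81 * D := by linarith
  have c1 : IsCoprime (N - D) D := by
    have := IsCoprime.add_mul_left_left hcop (-1)
    rwa [show N + D * -1 = N - D by ring] at this
  have c2 : IsCoprime (N - 81 * D) D := by
    have := IsCoprime.add_mul_left_left hcop (-81)
    rwa [show N + D * -81 = N - 81 * D by ring] at this
  have c3 : IsCoprime N (N - D) := by
    have := (IsCoprime.add_mul_left_right hcop (-1)).neg_right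
    rwa [show -(D + N * -1) = N - D by ring] at this
  -- Step 1: D is a square and the rest is a square
  have c4 : IsCoprime D (N * (N - D) * (N - 81 * D)) :=
    IsCoprime.mul_right (IsCoprime.mul_right hcop.symm c1.symm) c2.symm
  obtain ⟨k, hk⟩ := sq_of_coprime_pos hD c4 h
  obtain ⟨m1, hm1⟩ := sq_of_coprime_pos (mul_pos (mul_pos hN0 hND) hN81) c4.symm
    (by rw [mul_comm]; exact h)
  have hk0 : k ≠ 0 := by
    rintro rfl
    norm_num at hk
    omega
  -- 3 does not divide D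
  -- Step 2: N is a square
  obtain ⟨g, a, v', e, hg, hgN, hgv, hNg, hv', hv'pos, hav, he⟩ :=
    split_sq (u := N) (v := N - 81 * D) (w := N - D) (m := m1) hN0 hN81 hND c3
      (by rw [← hm1]; ring)
  have hg81 : g ∣ 81 := by
    have hgD : IsCoprime g D := IsCoprime.of_isCoprime_of_dvd_left hcop hgN
    have : g ∣ 81 * D := by
      have := dvd_sub hgN hgv
      rwa [show N - (N - 81 * D) = 81 * D by ring] at this
    exact hgD.dvd_of_dvd_mul_right this
  have hgcases : g = 1 ∨ g = 3 ∨ g = 9 ∨ g = 27 ∨ g = 81 := by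
    have hle : g ≤ 81 := Int.le_of_dvd (by norm_num) hg81
    obtain ⟨q, hq⟩ := hg81
    interval_cases g <;> omega
  have hNsq : ∃ n : ℤ, N = n ^ 2 := by
    -- the bad cases g = 3, 27
    have bad : ∀ t : ℤ, (t = 3 ∨ t = 27) → g = t → False := by
      intro t ht hgt
      -- 3 ∣ N, so 3 ∤ D, so 3 ∤ k
      have h3N : (3 : ℤ) ∣ N := by
        rw [hNg, hgt]
        rcases ht with rfl | rfl
        · exact ⟨a ^ 2, by ring⟩
        · exact ⟨9 * a ^ 2, by ring⟩
      have h3k : ¬ (3 : ℤ) ∣ k := by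
        intro h3k
        have h3D : (3 : ℤ) ∣ D := by rw [hk]; exact Dvd.dvd.pow h3k two_ne_zero
        have hu : IsUnit (3 : ℤ) := hcop.isUnit_of_dvd' h3N h3D
        rw [Int.isUnit_iff] at hu
        omega
      have hk3 := sq_mod_three_of_not_dvd k h3k
      -- v' = a^2 - (81/t) D
      have h3a : ¬ (3 : ℤ) ∣ a := by
        intro h3a
        obtain ⟨a1, rfl⟩ := h3a
        have h3v : (3 : ℤ) ∣ v' := by
          have e1 : g * v' = g * ((3 * a1) ^ 2) - 81 * D := by rw [← hv', ← hNg]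
          rw [hgt] at e1
          rcases ht with rfl | rfl
          · exact ⟨3 * a1 ^ 2 - 9 * D, by linarith⟩
          · exact ⟨3 * a1 ^ 2 - D, by linarith⟩
        have hu : IsUnit (3 : ℤ) := hav.isUnit_of_dvd' ⟨a1, rfl⟩ h3v
        rw [Int.isUnit_iff] at hu
        omega
      have ha3 := sq_mod_three_of_not_dvd a h3a
      have hv3 : v' % 3 = 1 := by
        have e1 : g * v' = g * a ^ 2 - 81 * D := by rw [← hv', ← hNg]
        rw [hgt] at e1
        rcases ht with rfl | rfl <;> omega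
      have hND3 : (N - D) % 3 = 2 := by
        obtain ⟨N1, rfl⟩ := h3N
        rw [hk]; omega
      have he3 := sq_mod_three e
      have : (v' * (N - D)) % 3 = 2 := by
        rw [Int.mul_emod, hv3, hND3]; norm_num
      rw [he] at this
      omega
    rcases hgcases with h1 | h1 | h1 | h1 | h1
    · exact ⟨a, by rw [hNg, h1]; ring⟩
    · exact (bad 3 (Or.inl rfl) h1).elim
    · exact ⟨3 * a, by rw [hNg, h1]; ring⟩
    · exact (bad 27 (Or.inr rfl) h1).elim
    · exact ⟨9 * a, by rw [hNg, h1]; ring⟩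
  obtain ⟨n, hn⟩ := hNsq
  have hn0 : n ≠ 0 := by
    rintro rfl
    norm_num at hn
    omega
  have hnk : IsCoprime n k := by
    rw [hn, hk] at hcop
    exact IsCoprime.pow_iff (by norm_num) (by norm_num) |>.mp hcop
  -- Step 3: the class of N - D
  obtain ⟨g', a2, v'', e2, hg', hg'u, hg'v, hNDg, hv'', hv''pos, -, he2⟩ :=
    split_sq (u := N - D) (v := N - 81 * D) (w := N) (m := m1) hND hN81 hN0 c3.symm
      (by rw [← hm1]; ring)
  have hg80 : g' ∣ 80 := by
    have hgD : IsCoprime g' D := IsCoprime.of_isCoprime_of_dvd_left c1 hg'u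
    have : g' ∣ 80 * D := by
      have := dvd_sub hg'u hg'v
      rwa [show N - D - (N - 81 * D) = 80 * D by ring] at this
    exact hgD.dvd_of_dvd_mul_right this
  -- v'' is a square
  obtain ⟨b2, hb2⟩ : ∃ b2 : ℤ, v'' = b2 ^ 2 := by
    have hdvd : n ∣ e2 := by
      have : n ^ 2 ∣ e2 ^ 2 := ⟨v'', by rw [← he2, hn]; ring⟩
      exact (Int.pow_dvd_pow_iff two_ne_zero).mp this
    obtain ⟨b2, rfl⟩ := hdvd
    refine ⟨b2, ?_⟩
    have : n ^ 2 * v'' = n ^ 2 * b2 ^ 2 := by linear_combination he2 - v'' * hn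
    exact mul_left_cancel₀ (pow_ne_zero 2 hn0) this
  have hg'cases : g' = 1 ∨ g' = 2 ∨ g' = 4 ∨ g' = 5 ∨ g' = 8 ∨ g' = 10 ∨ g' = 16 ∨ g' = 20 ∨
      g' = 40 ∨ g' = 80 := by
    have hle : g' ≤ 80 := Int.le_of_dvd (by norm_num) hg80
    obtain ⟨q, hq⟩ := hg80
    interval_cases g' <;> omega
  have e1 : n ^ 2 - k ^ 2 = g' * a2 ^ 2 := by rw [← hn, ← hk, hNDg]
  have e81 : n ^ 2 - 81 * k ^ 2 = g' * b2 ^ 2 := by rw [← hn, ← hk, hv'', hb2]
  refine ⟨n, k, ?_⟩
  rcases hg'cases with h1 | h1 | h1 | h1 | h1 | h1 | h1 | h1 | h1 | h1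
  · exact ⟨a2, hn, hk, Or.inl (by rw [hNDg, h1]; ring)⟩
  · exact (no_class_two n k a2 b2 2 (Or.inl rfl) hnk (by rw [e1, h1]) (by rw [e81, h1])).elim
  · exact ⟨2 * a2, hn, hk, Or.inl (by rw [hNDg, h1]; ring)⟩
  · exact ⟨a2, hn, hk, Or.inr (by rw [hNDg, h1])⟩
  · exact (no_class_two n k (2 * a2) (2 * b2) 2 (Or.inl rfl) hnk (by rw [e1, h1]; ring)
      (by rw [e81, h1]; ring)).elim
  · exact (no_class_two n k a2 b2 10 (Or.inr rfl) hnk (by rw [e1, h1]) (by rw [e81, h1])).elim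
  · exact ⟨4 * a2, hn, hk, Or.inl (by rw [hNDg, h1]; ring)⟩
  · exact ⟨2 * a2, hn, hk, Or.inr (by rw [hNDg, h1]; ring)⟩
  · exact (no_class_two n k (2 * a2) (2 * b2) 10 (Or.inr rfl) hnk (by rw [e1, h1]; ring)
      (by rw [e81, h1]; ring)).elim
  · exact ⟨4 * a2, hn, hk, Or.inr (by rw [hNDg, h1]; ring)⟩

/-- Class lemma: a rational point with `x > 81` has `x` a square and `x - 1` a square or five
times a square. -/
theorem classify_rat (x y : ℚ) (hx : 81 < x) (h : y ^ 2 = x * (x - 1) * (x - 81)) :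
    IsSquare x ∧ (IsSquare (x - 1) ∨ IsSquare (5 * (x - 1))) := by
  obtain ⟨N, D, hD, hcop, rfl⟩ : ∃ N D : ℤ, 0 < D ∧ IsCoprime N D ∧ x = (N : ℚ) / (D : ℚ) := by
    refine ⟨x.num, x.den, by exact_mod_cast x.den_pos, ?_, (Rat.num_div_den x).symm⟩
    rw [Int.isCoprime_iff_gcd_eq_one]
    exact x.reduced
  have hDq : (0 : ℚ) < D := by exact_mod_cast hD
  have hN : 81 * D < N := by
    have : (81 : ℚ) * D < N := by rwa [lt_div_iff₀ hDq] at hx
    exact_mod_cast this
  have hsq : IsSquare ((D * (N * (N - D) * (N - 81 * D)) : ℤ) : ℚ) := by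
    refine ⟨y * D ^ 2, ?_⟩
    have e : y * (D : ℚ) ^ 2 * (y * (D : ℚ) ^ 2) = y ^ 2 * (D : ℚ) ^ 4 := by ring
    rw [e, h]
    push_cast
    field_simp
  rw [Rat.isSquare_intCast_iff] at hsq
  obtain ⟨m, hm⟩ := hsq
  obtain ⟨n, k, a, hn, hk, ha⟩ := classify_int N D m hD hN hcop (by rw [hm]; ring)
  have hk0 : (k : ℚ) ≠ 0 := by
    intro hk0
    have : k = 0 := by exact_mod_cast hk0
    rw [this] at hk
    norm_num at hk
    omega
  have hDk : (D : ℚ) = (k : ℚ) ^ 2 := by exact_mod_cast hk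
  have hNn : (N : ℚ) = (n : ℚ) ^ 2 := by exact_mod_cast hn
  refine ⟨⟨(n : ℚ) / k, ?_⟩, ?_⟩
  · rw [hDk, hNn]; field_simp
  · rcases ha with ha | ha
    · left
      have haq : (N : ℚ) - D = (a : ℚ) ^ 2 := by exact_mod_cast ha
      refine ⟨(a : ℚ) / k, ?_⟩
      have : (N : ℚ) / D - 1 = ((N : ℚ) - D) / D := by field_simp
      rw [this, haq, hDk]; field_simp
    · right
      have haq : (N : ℚ) - D = 5 * (a : ℚ) ^ 2 := by exact_mod_cast ha
      refine ⟨5 * (a : ℚ) / k, ?_⟩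
      have : 5 * ((N : ℚ) / D - 1) = 5 * ((N : ℚ) - D) / D := by field_simp
      rw [this, haq, hDk]; field_simp

/-- `x`, `x - 1` and `x - 81` are all rational squares. -/
def Good (x : ℚ) : Prop := IsSquare x ∧ IsSquare (x - 1) ∧ IsSquare (x - 81)

/-- A point with `x > 81` is, up to translation by the 2-torsion point `(81, 0)`, in the
trivial class. -/
theorem good_of_point (x y : ℚ) (hx : 81 < x) (h : y ^ 2 = x * (x - 1) * (x - 81)) :
    Good x ∨ Good (81 * (x - 1) / (x - 81)) := by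
  obtain ⟨⟨s, hs⟩, hcl⟩ := classify_rat x y hx h
  have hx0 : x ≠ 0 := by linarith
  have hx1 : x - 1 ≠ 0 := by linarith
  have hx81 : x - 81 ≠ 0 := by linarith
  have hy : y ≠ 0 := by
    rintro rfl
    have : x * (x - 1) * (x - 81) ≠ 0 := mul_ne_zero (mul_ne_zero hx0 hx1) hx81
    exact this (by rw [← h]; ring)
  have hs0 : s ≠ 0 := by
    rintro rfl
    exact hx0 (by rw [hs]; ring)
  rcases hcl with ⟨t, ht⟩ | ⟨t, ht⟩
  · left
    have ht0 : t ≠ 0 := by
      rintro rfl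
      exact hx1 (by rw [ht]; ring)
    refine ⟨⟨s, hs⟩, ⟨t, ht⟩, ⟨y / (s * t), ?_⟩⟩
    have e : y / (s * t) * (y / (s * t)) = y ^ 2 / ((s * s) * (t * t)) := by
      field_simp
    rw [e, ← hs, ← ht, h]
    field_simp
  · right
    refine ⟨⟨9 * (x - 1) * s / y, ?_⟩, ⟨4 * x * t / y, ?_⟩, ⟨36 * s * t / y, ?_⟩⟩
    · have e : 9 * (x - 1) * s / y * (9 * (x - 1) * s / y) =
          81 * (x - 1) ^ 2 * (s * s) / y ^ 2 := by
        field_simp
        norm_num
      rw [e, ← hs, h]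
      field_simp
    · have e : 4 * x * t / y * (4 * x * t / y) = 16 * x ^ 2 * (t * t) / y ^ 2 := by
        field_simp
        ring
      rw [e, ← ht, h]
      field_simp
      ring
    · have e : 36 * s * t / y * (36 * s * t / y) = 1296 * (s * s) * (t * t) / y ^ 2 := by
        field_simp
        ring
      rw [e, ← hs, ← ht, h]
      field_simp
      ring

/-- From a rational number in the trivial class, extract an integer solution of the system
`n^2 - k^2 = b^2`, `n^2 - 81 k^2 = c^2` with `0 < k ≤ den x`. -/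
theorem extract (x : ℚ) (hG : Good x) :
    ∃ (k : ℕ) (n b c : ℤ), 0 < k ∧ k ≤ x.den ∧ n ^ 2 - (k : ℤ) ^ 2 = b ^ 2 ∧
      n ^ 2 - 81 * (k : ℤ) ^ 2 = c ^ 2 := by
  obtain ⟨h0, ⟨r1, hr1⟩, ⟨r81, hr81⟩⟩ := hG
  obtain ⟨⟨n, hn⟩, ⟨k, hk⟩⟩ := Rat.isSquare_iff.mp h0
  have hkpos : 0 < k := by
    rcases Nat.eq_zero_or_pos k with h | h
    · exfalso
      rw [h] at hk
      exact x.den_ne_zero (by simp at hk)
    · exact h
  have hkq : (k : ℚ) ≠ 0 := by exact_mod_cast hkpos.ne'
  have hxk : x * (k : ℚ) ^ 2 = (n : ℚ) ^ 2 := by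
    have e := Rat.num_div_den x
    rw [hn, hk] at e
    push_cast at e
    rw [← e]
    field_simp
  have hb : IsSquare ((n ^ 2 - (k : ℤ) ^ 2 : ℤ) : ℚ) := by
    refine ⟨r1 * k, ?_⟩
    push_cast
    linear_combination (-1 : ℚ) * hxk + (k : ℚ) ^ 2 * hr1
  have hc : IsSquare ((n ^ 2 - 81 * (k : ℤ) ^ 2 : ℤ) : ℚ) := by
    refine ⟨r81 * k, ?_⟩
    push_cast
    linear_combination (-1 : ℚ) * hxk + (k : ℚ) ^ 2 * hr81
  rw [Rat.isSquare_intCast_iff] at hb hc
  obtain ⟨b, hb⟩ := hb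
  obtain ⟨c, hc⟩ := hc
  refine ⟨k, n, b, c, hkpos, ?_, by rw [hb]; ring, by rw [hc]; ring⟩
  rw [hk]
  exact Nat.le_mul_self k

/-- The descent: the system `n^2 - k^2 = b^2`, `n^2 - 81 k^2 = c^2` has no solution with
`k ≠ 0`. -/
theorem descent : ∀ (k : ℕ) (n b c : ℤ), 0 < k → n ^ 2 - (k : ℤ) ^ 2 = b ^ 2 →
    n ^ 2 - 81 * (k : ℤ) ^ 2 = c ^ 2 → False := by
  intro k
  induction k using Nat.strong_induction_on with
  | _ k ih =>
    intro n b c hk h1 h2
    wlog hnn : 0 ≤ n ∧ 0 ≤ b ∧ 0 ≤ c generalizing n b c with H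
    · exact H |n| |b| |c| (by simpa using h1) (by simpa using h2)
        ⟨abs_nonneg _, abs_nonneg _, abs_nonneg _⟩
    obtain ⟨hn, hb, hc⟩ := hnn
    have hkZ : (0 : ℤ) < k := by exact_mod_cast hk
    have hb' : 0 < b := by
      rcases hb.eq_or_lt with h | h
      · exfalso
        rw [← h] at h1
        nlinarith [sq_nonneg c, mul_pos hkZ hkZ]
      · exact h
    have hnb : b < n := by nlinarith [mul_pos hkZ hkZ]
    have hnbk : n - b < k := by
      by_contra hcon
      push Not at hcon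
      have h3 : (k : ℤ) * k ≤ (n - b) * (n - b) := mul_le_mul hcon hcon hkZ.le (by linarith)
      nlinarith [mul_pos (sub_pos.mpr hnb) hb']
    -- rational versions
    have hkq : (0 : ℚ) < k := by exact_mod_cast hk
    have hbq : (0 : ℚ) < b := by exact_mod_cast hb'
    have hcq : (0 : ℚ) ≤ c := by exact_mod_cast hc
    have hnbq : (0 : ℚ) < (n : ℚ) - b := by
      have : (b : ℚ) < n := by exact_mod_cast hnb
      linarith
    have h1q : (n : ℚ) ^ 2 - (k : ℚ) ^ 2 = (b : ℚ) ^ 2 := by exact_mod_cast h1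
    have h2q : (n : ℚ) ^ 2 - 81 * (k : ℚ) ^ 2 = (c : ℚ) ^ 2 := by exact_mod_cast h2
    have hnq : (0 : ℚ) < n := by linarith
    have key : ((c : ℚ) - 80 * n + 81 * b) * (n + b) = (c + n) * (c + b) := by
      linear_combination h2q - 81 * h1q
    have hpos : (0 : ℚ) < (c : ℚ) - 80 * n + 81 * b := by
      have h3 : (0 : ℚ) < ((c : ℚ) - 80 * n + 81 * b) * (n + b) := by
        rw [key]
        exact mul_pos (by linarith) (by linarith)
      by_contra hneg
      push Not at hneg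
      have : ((c : ℚ) - 80 * n + 81 * b) * (n + b) ≤ 0 :=
        mul_nonpos_of_nonpos_of_nonneg hneg (by linarith)
      linarith
    have hnb0 : (n : ℚ) - b ≠ 0 := hnbq.ne'
    have hnpb0 : (n : ℚ) + b ≠ 0 := by
      have : (0 : ℚ) < (n : ℚ) + b := by linarith
      exact this.ne'
    have hcn0 : (c : ℚ) + n ≠ 0 := by
      have : (0 : ℚ) < (c : ℚ) + n := by linarith
      exact this.ne'
    have hcb0 : (c : ℚ) + b ≠ 0 := by
      have : (0 : ℚ) < (c : ℚ) + b := by linarith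
      exact this.ne'
    have hk2 : (k : ℚ) ^ 2 = (n - b) * (n + b) := by linear_combination (-1 : ℚ) * h1q
    obtain ⟨x₁, hx₁⟩ : ∃ x₁ : ℚ, x₁ = ((n : ℚ) + c) / (n - b) := ⟨_, rfl⟩
    have hx1m1 : x₁ - 1 = ((b : ℚ) + c) / (n - b) := by
      rw [hx₁]; field_simp; ring
    have hx1m81 : x₁ - 81 = ((c : ℚ) + n) * (c + b) / ((n - b) * (n + b)) := by
      rw [hx₁, div_sub' hnb0, div_eq_div_iff hnb0 (mul_ne_zero hnb0 hnpb0)]
      linear_combination ((n : ℚ) - b) * key
    have hx1gt : 81 < x₁ := by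
      rw [hx₁, lt_div_iff₀ hnbq]
      linarith
    have hy1 : (((n : ℚ) + c) * (b + c) / ((n - b) * k)) ^ 2 = x₁ * (x₁ - 1) * (x₁ - 81) := by
      rw [hx1m1, hx1m81, hx₁, div_pow, mul_pow, mul_pow, hk2]
      field_simp
      ring
    -- denominators
    have hden : ∀ z : ℤ, (((z : ℚ) / ((n - b : ℤ) : ℚ)).den : ℤ) < k := by
      intro z
      have hd : ((((z : ℚ) / ((n - b : ℤ) : ℚ)).den : ℤ)) ∣ (n - b) := by
        have := Rat.den_dvd z (n - b)
        rwa [Rat.divInt_eq_div] at this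
      have := Int.le_of_dvd (by linarith) hd
      linarith
    rcases good_of_point x₁ _ hx1gt hy1 with hG | hG
    · obtain ⟨k', n', b', c', hk', hle, e1, e2⟩ := extract x₁ hG
      have hlt : k' < k := by
        have h4 := hden (n + c)
        have h5 : x₁ = ((n + c : ℤ) : ℚ) / ((n - b : ℤ) : ℚ) := by rw [hx₁]; push_cast; ring
        rw [← h5] at h4
        have : (k' : ℤ) < k := lt_of_le_of_lt (by exact_mod_cast hle) h4
        exact_mod_cast this
      exact ih k' hlt n' b' c' hk' e1 e2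
    · have hx2 : 81 * (x₁ - 1) / (x₁ - 81) = ((n - c : ℤ) : ℚ) / ((n - b : ℤ) : ℚ) := by
        rw [hx1m1, hx1m81]
        push_cast
        have e3 : 81 * (((b : ℚ) + c) / (n - b)) / (((c : ℚ) + n) * (c + b) / ((n - b) * (n + b))) =
            81 * ((n : ℚ) + b) / (c + n) := by
          field_simp
          ring
        rw [e3, div_eq_div_iff hcn0 hnb0]
        linear_combination 81 * h1q - h2q
      rw [hx2] at hG
      obtain ⟨k', n', b', c', hk', hle, e1, e2⟩ := extract _ hG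
      have hlt : k' < k := by
        have h4 := hden (n - c)
        have : (k' : ℤ) < k := lt_of_le_of_lt (by exact_mod_cast hle) h4
        exact_mod_cast this
      exact ih k' hlt n' b' c' hk' e1 e2

/-- No rational point with `x > 81`. -/
theorem no_big (x y : ℚ) (hx : 81 < x) (h : y ^ 2 = x * (x - 1) * (x - 81)) : False := by
  rcases good_of_point x y hx h with hG | hG
  · obtain ⟨k, n, b, c, hk, -, e1, e2⟩ := extract x hG
    exact descent k n b c hk e1 e2
  · obtain ⟨k, n, b, c, hk, -, e1, e2⟩ := extract _ hG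
    exact descent k n b c hk e1 e2

end Leg81

/-- (K) Diophantine core: the rational points of `y^2 = x(x-1)(x-81)` (the curve 15a2, of rank
`0`) are the three affine 2-torsion points. -/
theorem legendre81 (x y : ℚ) (h : y ^ 2 = x * (x - 1) * (x - 81)) : x = 0 ∨ x = 1 ∨ x = 81 := by
  by_contra hcon
  push Not at hcon
  obtain ⟨h0, h1, h81⟩ := hcon
  have hy : 0 < y ^ 2 := by
    have hy0 : y ≠ 0 := by
      rintro rfl
      have h3 : x * (x - 1) * (x - 81) = 0 := by rw [← h]; ring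
      rcases mul_eq_zero.mp h3 with h' | h'
      · rcases mul_eq_zero.mp h' with h'' | h''
        · exact h0 h''
        · exact h1 (by linarith)
      · exact h81 (by linarith)
    positivity
  rw [h] at hy
  rcases lt_trichotomy x 81 with hlt | heq | hgt
  · have hx0 : 0 < x := by
      by_contra hneg
      push Not at hneg
      have hx : x < 0 := lt_of_le_of_ne hneg h0
      nlinarith [mul_pos_of_neg_of_neg (show x - 1 < 0 by linarith) (show x - 81 < 0 by linarith)]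
    have hx1 : x < 1 := by
      by_contra hge
      push Not at hge
      have hx : 1 < x := lt_of_le_of_ne hge (Ne.symm h1)
      nlinarith [mul_pos hx0 (show 0 < x - 1 by linarith)]
    refine Leg81.no_big (81 / x) (81 * y / x ^ 2) ?_ ?_
    · rw [lt_div_iff₀ hx0]; linarith
    · rw [div_pow, mul_pow, h]
      field_simp
      ring
  · exact h81 heq
  · exact Leg81.no_big x y hgt h

end Fermat.Agent.S51
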