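import Mathlib
import Fermat.Agent.S51.Fiber

set_option autoImplicit false

namespace Fermat.Agent.S51

/-- Rational points of the `(u,v)`-model of `X_0(15)`, assuming the rational points of
`y^2 = x(x-1)(x-81)` are known (hypothesis `hK`). -/
theorem x015_points_of
    (hK : ∀ x y : ℚ, y ^ 2 = x * (x - 1) * (x - 81) → x = 0 ∨ x = 1 ∨ x = 81)
    (u v : ℚ) (hu : u ≠ 0) (hv : v ≠ 0)
    (h : u ^ 2 * v + u * v ^ 2 + 5 * u * v + 9 * u - v = 0) :
    (u = 2 ∧ v = -2) ∨ (u = 2 ∧ v = -9 / 2) ∨ (u = -1 / 2 ∧ v = -2) ∨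
      (u = -1 / 2 ∧ v = -9 / 2) := by
  by_cases h4 : v = 4 * u
  · subst h4
    have h5 : 5 * u * (2 * u + 1) ^ 2 = 0 := by linear_combination h
    have hu2 : u = -1 / 2 := by
      rcases mul_eq_zero.mp h5 with h' | h'
      · rcases mul_eq_zero.mp h' with h'' | h''
        · norm_num at h''
        · exact absurd h'' hu
      · have h6 : 2 * u + 1 = 0 := by simpa using h'
        linarith
    right; right; left
    exact ⟨hu2, by rw [hu2]; norm_num⟩
  · have hd : v - 4 * u ≠ 0 := sub_ne_zero.mpr h4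
    have hud : u * (v - 4 * u) ≠ 0 := mul_ne_zero hu hd
    have ha : (4 * v + 9 * u) * (v - 4 * u) = u * v * (2 * u + 2 * v + 5) ^ 2 := by
      linear_combination (-4 * (u + v)) * h
    obtain ⟨X, hX⟩ : ∃ X : ℚ, X = v * (4 * v + 9 * u) / (u * (v - 4 * u)) := ⟨_, rfl⟩
    obtain ⟨Z, hZ⟩ : ∃ Z : ℚ, Z = v * (2 * u + 2 * v + 5) / (v - 4 * u) := ⟨_, rfl⟩
    have hX1 : X - 1 = 4 * (u + v) ^ 2 / (u * (v - 4 * u)) := by
      rw [hX]; field_simp; ring
    have hX81 : X - 81 = 4 * (v - 9 * u) ^ 2 / (u * (v - 4 * u)) := by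
      rw [hX]; field_simp; ring
    have hXsq : X = Z ^ 2 := by
      rw [hX, hZ, div_pow, div_eq_div_iff hud (pow_ne_zero 2 hd)]
      linear_combination (v * (v - 4 * u)) * ha
    have hXY : (Z * (4 * (u + v) * (v - 9 * u) / (u * (v - 4 * u)))) ^ 2 =
        X * (X - 1) * (X - 81) := by
      rw [hX1, hX81, mul_pow, ← hXsq]; ring
    rcases hK X _ hXY with h0 | h1 | h81
    · -- X = 0, so 2u + 2v + 5 = 0
      have hZ0 : Z = 0 := by
        have : Z ^ 2 = 0 := by rw [← hXsq, h0]
        simpa using this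
      have hP : 2 * u + 2 * v + 5 = 0 := by
        rw [hZ, div_eq_zero_iff] at hZ0
        rcases hZ0 with h' | h'
        · rcases mul_eq_zero.mp h' with h'' | h''
          · exact absurd h'' hv
          · exact h''
        · exact absurd h' hd
      have hv' : v = -u - 5 / 2 := by linarith
      subst hv'
      have h6 : (2 * u + 1) * (u - 2) = 0 := by linear_combination (-4 / 5 : ℚ) * h
      rcases mul_eq_zero.mp h6 with h' | h'
      · right; right; left
        have hu2 : u = -1 / 2 := by linarith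
        exact ⟨hu2, by rw [hu2]; norm_num⟩
      · right; left
        have hu2 : u = 2 := by linarith
        exact ⟨hu2, by rw [hu2]; norm_num⟩
    · -- X = 1, so u + v = 0
      have h7 : 4 * (u + v) ^ 2 / (u * (v - 4 * u)) = 0 := by rw [← hX1, h1]; ring
      rw [div_eq_zero_iff] at h7
      rcases h7 with h' | h'
      · have h8 : u + v = 0 := by
          have : (u + v) ^ 2 = 0 := by linarith
          simpa using this
        have hv' : v = -u := by linarith
        subst hv'
        have h6 : u * (u - 2) = 0 := by linear_combination (-1 / 5 : ℚ) * h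
        rcases mul_eq_zero.mp h6 with h'' | h''
        · exact absurd h'' hu
        · left
          have hu2 : u = 2 := by linarith
          exact ⟨hu2, by rw [hu2]⟩
      · exact absurd h' hud
    · -- X = 81, so v = 9u
      have h7 : 4 * (v - 9 * u) ^ 2 / (u * (v - 4 * u)) = 0 := by rw [← hX81, h81]; ring
      rw [div_eq_zero_iff] at h7
      rcases h7 with h' | h'
      · have h8 : v - 9 * u = 0 := by
          have : (v - 9 * u) ^ 2 = 0 := by linarith
          simpa using this
        have hv' : v = 9 * u := by linarith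
        subst hv'
        have h6 : u ^ 2 * (2 * u + 1) = 0 := by linear_combination (1 / 45 : ℚ) * h
        rcases mul_eq_zero.mp h6 with h'' | h''
        · exact absurd (by simpa using h'') hu
        · right; right; right
          have hu2 : u = -1 / 2 := by linarith
          exact ⟨hu2, by rw [hu2]; norm_num⟩
      · exact absurd h' hud

/-- The four possible values of `τ`, assuming the rational points of `y^2 = x(x-1)(x-81)`. -/
theorem tau_values_of
    (hK : ∀ x y : ℚ, y ^ 2 = x * (x - 1) * (x - 81) → x = 0 ∨ x = 1 ∨ x = 81)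
    (τ s : ℚ) (hτ : τ ≠ 0) (hs : s ≠ 0)
    (h : s * (τ + 27) * (τ + 3) ^ 3 = τ * (s ^ 2 + 10 * s + 5) ^ 3) :
    τ = -729 / 32 ∨ τ = -2 ∨ τ = -729 / 2 ∨ τ = -32 := by
  obtain ⟨u, v, hc, ht⟩ := fiber_to_x015 τ s hτ hs h
  have hu : u ≠ 0 := by
    rintro rfl
    norm_num at ht
  have hv : v ≠ 0 := by
    rintro rfl
    norm_num at ht
  rcases x015_points_of hK u v hu hv hc with ⟨rfl, rfl⟩ | ⟨rfl, rfl⟩ | ⟨rfl, rfl⟩ | ⟨rfl, rfl⟩
  · left; linarith
  · right; left; linarith
  · right; right; left; linarith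
  · right; right; right; linarith

end Fermat.Agent.S51
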