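import Mathlib
import Fermat.Agent.S51.Legendre81
import Fermat.Agent.S51.X015Core

set_option autoImplicit false

namespace Fermat.Agent.S51

/-- (C2) rational points of `X_0(15)` in the `(u,v)`-model. -/
theorem x015_points (u v : ℚ) (hu : u ≠ 0) (hv : v ≠ 0)
    (h : u ^ 2 * v + u * v ^ 2 + 5 * u * v + 9 * u - v = 0) :
    (u = 2 ∧ v = -2) ∨ (u = 2 ∧ v = -9 / 2) ∨ (u = -1 / 2 ∧ v = -2) ∨ (u = -1 / 2 ∧ v = -9 / 2) :=
  x015_points_of legendre81 u v hu hv h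

/-- (C) the four possible values of `τ`. -/
theorem tau_values (τ s : ℚ) (hτ : τ ≠ 0) (hs : s ≠ 0)
    (h : s * (τ + 27) * (τ + 3) ^ 3 = τ * (s ^ 2 + 10 * s + 5) ^ 3) :
    τ = -729 / 32 ∨ τ = -2 ∨ τ = -729 / 2 ∨ τ = -32 :=
  tau_values_of legendre81 τ s hτ hs h

end Fermat.Agent.S51
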