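import Mathlib

set_option autoImplicit false

open WeierstrassCurve WeierstrassCurve.Affine Polynomial

namespace Fermat.Agent.S51

variable {K : Type*} [Field K]

/-- The Weierstrass equation at a fixed `x`, as a polynomial in `y`. -/
noncomputable def yPoly (W : Affine K) (x : K) : K[X] :=
  X ^ 2 + C (W.a₁ * x + W.a₃) * X - C (x ^ 3 + W.a₂ * x ^ 2 + W.a₄ * x + W.a₆)

lemma yPoly_natDegree (W : Affine K) (x : K) : (yPoly W x).natDegree = 2 := by
  unfold yPoly
  compute_degree!

lemma yPoly_ne_zero (W : Affine K) (x : K) : yPoly W x ≠ 0 := by
  intro h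
  have := yPoly_natDegree W x
  rw [h] at this
  simp at this

lemma eval_yPoly_of_equation (W : Affine K) {x y : K} (h : W.Equation x y) :
    (yPoly W x).eval y = 0 := by
  rw [equation_iff] at h
  simp only [yPoly, eval_sub, eval_add, eval_pow, eval_X, eval_mul, eval_C]
  linear_combination h

/-- The coordinate map on points. -/
def pointCoords (W : Affine K) : W.Point → Option (K × K)
  | .zero => none
  | .some x y _ => some (x, y)

lemma pointCoords_injective (W : Affine K) : Function.Injective (pointCoords W) := by
  rintro (_ | ⟨x₁, y₁, h₁⟩) (_ | ⟨x₂, y₂, h₂⟩) h <;>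
    simp only [pointCoords, Option.some.injEq, Prod.mk.injEq, reduceCtorEq] at h
  · rfl
  · obtain ⟨rfl, rfl⟩ := h; rfl

/-- A set of points all of whose affine members have `x`-coordinate a root of a fixed nonzero
polynomial `f` is finite, with at most `2 * deg f + 1` elements. -/
theorem finite_and_ncard_le (W : Affine K) (f : K[X]) (hf : f ≠ 0) (S : Set W.Point)
    (hS : ∀ (x y : K) (h : W.Nonsingular x y), Point.some x y h ∈ S → f.eval x = 0) :
    S.Finite ∧ S.ncard ≤ 2 * f.natDegree + 1 := by
  classical
  let T0 : Finset (K × K) :=
    f.roots.toFinset.biUnion fun x => (yPoly W x).roots.toFinset.image fun y => (x, y)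
  let T : Finset (Option (K × K)) := insert none (T0.image some)
  have hsub : pointCoords W '' S ⊆ (T : Set (Option (K × K))) := by
    rintro _ ⟨P, hP, rfl⟩
    rcases P with _ | ⟨x, y, h⟩
    · simp [pointCoords, T]
    · have hx : f.eval x = 0 := hS x y h hP
      have hy : (yPoly W x).eval y = 0 := eval_yPoly_of_equation W h.1
      simp only [pointCoords, T, T0, Finset.coe_insert, Finset.coe_image, Set.mem_insert_iff,
        reduceCtorEq, Set.mem_image, Finset.mem_coe, Finset.mem_biUnion, Multiset.mem_toFinset,
        Finset.mem_image, Option.some.injEq, exists_eq_right, false_or]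
      exact ⟨x, (mem_roots hf).mpr hx, y, (mem_roots (yPoly_ne_zero W x)).mpr hy, rfl⟩
  have hfin : (pointCoords W '' S).Finite := T.finite_toSet.subset hsub
  have hSfin : S.Finite := hfin.of_finite_image (pointCoords_injective W).injOn
  refine ⟨hSfin, ?_⟩
  have h1 : S.ncard = (pointCoords W '' S).ncard :=
    (Set.ncard_image_of_injective S (pointCoords_injective W)).symm
  have h2 : (pointCoords W '' S).ncard ≤ T.card := by
    have := Set.ncard_le_ncard hsub T.finite_toSet
    rwa [Set.ncard_coe_finset] at this
  have h3 : T0.card ≤ 2 * f.natDegree := by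
    calc T0.card ≤ ∑ x ∈ f.roots.toFinset, ((yPoly W x).roots.toFinset.image fun y => (x, y)).card :=
          Finset.card_biUnion_le
      _ ≤ ∑ _x ∈ f.roots.toFinset, 2 := by
          apply Finset.sum_le_sum
          intro x _
          calc ((yPoly W x).roots.toFinset.image fun y => (x, y)).card
              ≤ (yPoly W x).roots.toFinset.card := Finset.card_image_le
            _ ≤ Multiset.card (yPoly W x).roots := Multiset.toFinset_card_le _
            _ ≤ (yPoly W x).natDegree := card_roots' _
            _ = 2 := yPoly_natDegree W x
      _ = f.roots.toFinset.card * 2 := by rw [Finset.sum_const, smul_eq_mul]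
      _ ≤ f.natDegree * 2 := by
          apply Nat.mul_le_mul_right
          exact (Multiset.toFinset_card_le _).trans (card_roots' _)
      _ = 2 * f.natDegree := by ring
  have h4 : T.card ≤ T0.card + 1 := by
    calc T.card ≤ (T0.image some).card + 1 := Finset.card_insert_le _ _
      _ ≤ T0.card + 1 := by gcongr; exact Finset.card_image_le
  omega

end Fermat.Agent.S51
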