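import Mathlib
import Fermat.Agent.S51.Card

set_option autoImplicit false

open WeierstrassCurve WeierstrassCurve.Affine Polynomial

namespace Fermat.Agent.S51

/-- If the `x`-coordinates of the nonzero `n`-torsion points are roots of a nonzero polynomial `f`,
the `n`-torsion is finite with at most `2 * deg f + 1` elements. -/
theorem torsion_finite_card_le {K : Type*} [Field K] [DecidableEq K] (W : Affine K) (n : ℕ)
    (f : K[X]) (hf : f ≠ 0)
    (hroot : ∀ (x y : K) (h : W.Nonsingular x y), n • Point.some x y h = 0 → f.eval x = 0) :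
    Finite (Submodule.torsionBy ℤ W.Point (n : ℤ)) ∧
      Nat.card (Submodule.torsionBy ℤ W.Point (n : ℤ)) ≤ 2 * f.natDegree + 1 := by
  have key := finite_and_ncard_le W f hf
    ((Submodule.torsionBy ℤ W.Point (n : ℤ) : Submodule ℤ W.Point) : Set W.Point) (by
      intro x y h hmem
      apply hroot x y h
      have := (Submodule.mem_torsionBy_iff _ _).mp hmem
      simpa [natCast_zsmul] using this)
  refine ⟨key.1.to_subtype, ?_⟩
  have h2 : Nat.card (Submodule.torsionBy ℤ W.Point (n : ℤ)) =
      ((Submodule.torsionBy ℤ W.Point (n : ℤ) : Submodule ℤ W.Point) : Set W.Point).ncard :=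
    Nat.card_coe_set_eq _
  rw [h2]
  exact key.2

end Fermat.Agent.S51
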