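import Mathlib

set_option autoImplicit false

namespace Fermat.Agent.S51

theorem descent81_sq_mod_eight_odd (F : ℤ) (h : F % 2 = 1) : F ^ 2 % 8 = 1 := by
  have h8 : F % 8 = 1 ∨ F % 8 = 3 ∨ F % 8 = 5 ∨ F % 8 = 7 := by omega
  have e : F ^ 2 % 8 = (F % 8) * (F % 8) % 8 := by rw [pow_two, Int.mul_emod]
  rcases h8 with h | h | h | h <;> rw [e, h] <;> norm_num

theorem descent81_sq_mod_eight (K : ℤ) : K ^ 2 % 8 = 0 ∨ K ^ 2 % 8 = 1 ∨ K ^ 2 % 8 = 4 := by
  have h8 : K % 8 = 0 ∨ K % 8 = 1 ∨ K % 8 = 2 ∨ K % 8 = 3 ∨ K % 8 = 4 ∨ K % 8 = 5 ∨ K % 8 = 6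
      ∨ K % 8 = 7 := by omega
  have e : K ^ 2 % 8 = (K % 8) * (K % 8) % 8 := by rw [pow_two, Int.mul_emod]
  rcases h8 with h | h | h | h | h | h | h | h <;> rw [e, h] <;> norm_num

theorem descent81_sq_mod_four_even (F : ℤ) (h : F % 2 = 0) : F ^ 2 % 4 = 0 := by
  have h4 : F % 4 = 0 ∨ F % 4 = 2 := by omega
  have e : F ^ 2 % 4 = (F % 4) * (F % 4) % 4 := by rw [pow_two, Int.mul_emod]
  rcases h4 with h | h <;> rw [e, h] <;> norm_num

/-- The odd case is impossible. -/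
theorem descent81_odd_case (F G H K e : ℤ) (he : e = F ^ 2 - G ^ 2) (h9 : 9 * e = H ^ 2 - K ^ 2)
    (ha : F ^ 2 + G ^ 2 = H ^ 2 + K ^ 2)
    (hpar : F % 2 = 0 ∧ G % 2 = 1 ∨ F % 2 = 1 ∧ G % 2 = 0) : False := by
  have hH : H ^ 2 = 5 * F ^ 2 - 4 * G ^ 2 := by linarith
  have hK : K ^ 2 = 5 * G ^ 2 - 4 * F ^ 2 := by linarith
  rcases hpar with ⟨hF, hG⟩ | ⟨hF, hG⟩
  · have h1 := descent81_sq_mod_eight_odd G hG
    have h2 := descent81_sq_mod_four_even F hF
    have h3 := descent81_sq_mod_eight K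
    omega
  · have h1 := descent81_sq_mod_eight_odd F hF
    have h2 := descent81_sq_mod_four_even G hG
    have h3 := descent81_sq_mod_eight H
    omega

/-- Core of the even case. -/
theorem descent81_even_core (F G H K b c : ℤ) (hb : b = F ^ 2 - G ^ 2) (hc : c = H ^ 2 - K ^ 2)
    (hHK : H * K = 9 * (F * G)) (hsum : F ^ 2 + G ^ 2 = H ^ 2 + K ^ 2) (hF : F ≠ 0) (hG : G ≠ 0)
    (hb0 : 0 < b) (hcop : IsCoprime b c) :
    ∃ a' b' c' e' : ℤ, e' ≠ 0 ∧ a' ^ 2 = b' ^ 2 + e' ^ 2 ∧ a' ^ 2 = c' ^ 2 + 81 * e' ^ 2 ∧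
      a' ^ 2 < (F ^ 2 + G ^ 2) ^ 2 := by
  obtain ⟨m, hm⟩ : ∃ m : ℤ, m = H ^ 2 - G ^ 2 := ⟨_, rfl⟩
  obtain ⟨n, hn⟩ : ∃ n : ℤ, n = K ^ 2 - G ^ 2 := ⟨_, rfl⟩
  have hmn_b : m + n = b := by rw [hm, hn, hb]; linarith
  have hmn_c : m - n = c := by rw [hm, hn, hc]; ring
  have hprod : m * n = 5 * (4 * F * G) ^ 2 := by
    rw [hm, hn]; linear_combination (H * K + 9 * (F * G)) * hHK + G ^ 2 * hsum
  have hcop' : IsCoprime m n := by
    obtain ⟨u, v, huv⟩ := hcop
    exact ⟨u + v, u - v, by rw [← hmn_b, ← hmn_c] at huv; linear_combination huv⟩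
  have hF2 : 0 < F ^ 2 := by positivity
  have hG2 : 0 < G ^ 2 := by positivity
  have hpos : 0 < m * n := by
    rw [hprod]; positivity
  have hm0 : 0 < m ∧ 0 < n := by
    rcases pos_and_pos_or_neg_and_neg_of_mul_pos hpos with h | h
    · exact h
    · exfalso; linarith [h.1, h.2]
  have hp5 : Prime (5 : ℤ) := by rw [Int.prime_iff_natAbs_prime]; norm_num
  have h5 : (5 : ℤ) ∣ m * n := ⟨(4 * F * G) ^ 2, hprod⟩
  -- one of m, n is a perfect square
  have hsq : (∃ M : ℤ, m = M ^ 2) ∨ (∃ N : ℤ, n = N ^ 2) := by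
    rcases hp5.dvd_or_dvd h5 with ⟨m', hm'⟩ | ⟨n', hn'⟩
    · right
      have hcop2 : IsCoprime n m' := by
        rw [hm'] at hcop'
        exact (IsCoprime.of_mul_left_right hcop').symm
      have heq : n * m' = (4 * F * G) ^ 2 := by
        have : (5 : ℤ) * (n * m') = 5 * (4 * F * G) ^ 2 := by rw [← hprod, hm']; ring
        exact mul_left_cancel₀ (by norm_num) this
      obtain ⟨N, hN | hN⟩ := Int.sq_of_isCoprime hcop2 heq
      · exact ⟨N, hN⟩
      · exfalso; nlinarith [sq_nonneg N, hm0.2]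
    · left
      have hcop2 : IsCoprime m n' := by
        rw [hn'] at hcop'
        exact IsCoprime.of_mul_right_right hcop'
      have heq : m * n' = (4 * F * G) ^ 2 := by
        have : (5 : ℤ) * (m * n') = 5 * (4 * F * G) ^ 2 := by rw [← hprod, hn']; ring
        exact mul_left_cancel₀ (by norm_num) this
      obtain ⟨M, hM | hM⟩ := Int.sq_of_isCoprime hcop2 heq
      · exact ⟨M, hM⟩
      · exfalso; nlinarith [sq_nonneg M, hm0.1]
  rcases hsq with ⟨M, hM⟩ | ⟨N, hN⟩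
  · have hM2 : M ^ 2 = H ^ 2 - G ^ 2 := by rw [← hM, hm]
    refine ⟨H * F, M * F, H * M, G * F, mul_ne_zero hG hF, ?_, ?_, ?_⟩
    · linear_combination (-(F ^ 2)) * hM2
    · linear_combination (-(H ^ 2)) * hM2 + (H * K + 9 * (F * G)) * hHK + H ^ 2 * hsum
    · have hH2 : H ^ 2 ≤ F ^ 2 + G ^ 2 := by nlinarith [sq_nonneg K]
      calc (H * F) ^ 2 = H ^ 2 * F ^ 2 := by ring
        _ ≤ (F ^ 2 + G ^ 2) * F ^ 2 := mul_le_mul_of_nonneg_right hH2 hF2.le
        _ < (F ^ 2 + G ^ 2) * (F ^ 2 + G ^ 2) := by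
            apply mul_lt_mul_of_pos_left <;> linarith
        _ = (F ^ 2 + G ^ 2) ^ 2 := by ring
  · have hN2 : N ^ 2 = K ^ 2 - G ^ 2 := by rw [← hN, hn]
    refine ⟨K * F, N * F, K * N, G * F, mul_ne_zero hG hF, ?_, ?_, ?_⟩
    · linear_combination (-(F ^ 2)) * hN2
    · linear_combination (-(K ^ 2)) * hN2 + (H * K + 9 * (F * G)) * hHK + K ^ 2 * hsum
    · have hK2 : K ^ 2 ≤ F ^ 2 + G ^ 2 := by nlinarith [sq_nonneg H]
      calc (K * F) ^ 2 = K ^ 2 * F ^ 2 := by ring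
        _ ≤ (F ^ 2 + G ^ 2) * F ^ 2 := mul_le_mul_of_nonneg_right hK2 hF2.le
        _ < (F ^ 2 + G ^ 2) * (F ^ 2 + G ^ 2) := by
            apply mul_lt_mul_of_pos_left <;> linarith
        _ = (F ^ 2 + G ^ 2) ^ 2 := by ring

theorem descent81_sq_mod_two (x : ℤ) : x ^ 2 % 2 = x % 2 := by
  rcases Int.emod_two_eq_zero_or_one x with h | h <;> simp [pow_two, Int.mul_emod, h]

/-- `b` and `c` are coprime. -/
theorem descent81_coprime_bc (b c e : ℤ) (hbe : IsCoprime b e) (hb : b % 2 = 1)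
    (h : b ^ 2 - c ^ 2 = 80 * e ^ 2) : IsCoprime b c := by
  rw [Int.isCoprime_iff_gcd_eq_one]
  by_contra hne
  obtain ⟨p, hp, hpd⟩ := Nat.exists_prime_and_dvd hne
  have hpb : (p : ℤ) ∣ b := (Int.natCast_dvd_natCast.mpr hpd).trans (Int.gcd_dvd_left ..)
  have hpc : (p : ℤ) ∣ c := (Int.natCast_dvd_natCast.mpr hpd).trans (Int.gcd_dvd_right ..)
  have hpe : ¬ (p : ℤ) ∣ e := by
    intro hpe
    have hu := hbe.isUnit_of_dvd' hpb hpe
    rw [Int.ofNat_isUnit, Nat.isUnit_iff] at hu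
    exact hp.ne_one hu
  have h80 : (p : ℤ) ∣ 80 * e ^ 2 := by
    rw [← h]; exact dvd_sub (dvd_pow hpb two_ne_zero) (dvd_pow hpc two_ne_zero)
  rcases Int.Prime.dvd_mul' hp h80 with h80 | he2
  · have h80' : p ∣ 80 := by exact_mod_cast h80
    have hp25 : p = 2 ∨ p = 5 := by
      have h1 : p ∣ 2 ^ 4 * 5 := by norm_num; exact h80'
      rcases (Nat.Prime.dvd_mul hp).mp h1 with h2 | h5
      · left; exact (Nat.prime_dvd_prime_iff_eq hp Nat.prime_two).mp (hp.dvd_of_dvd_pow h2)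
      · right; exact (Nat.prime_dvd_prime_iff_eq hp Nat.prime_five).mp h5
    rcases hp25 with rfl | rfl
    · obtain ⟨k, hk⟩ := hpb
      push_cast at hk
      omega
    · obtain ⟨b', rfl⟩ := hpb
      obtain ⟨c', rfl⟩ := hpc
      push_cast at h hpe
      have h16 : ((5 : ℕ) : ℤ) ∣ 16 * e ^ 2 := ⟨b' ^ 2 - c' ^ 2, by push_cast; linarith⟩
      rcases Int.Prime.dvd_mul' Nat.prime_five h16 with h | h
      · norm_num at h
      · exact hpe (by exact_mod_cast Int.Prime.dvd_pow' Nat.prime_five h)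
  · exact hpe (Int.Prime.dvd_pow' hp he2)

/-- The descent step, with sign normalisations. -/
theorem descent81_step_pos (a b c e : ℤ) (hgcd : IsCoprime a e) (he : e ≠ 0) (ha : 0 < a)
    (hb : 0 ≤ b) (hc : 0 ≤ c)
    (h1 : a ^ 2 = b ^ 2 + e ^ 2) (h2 : a ^ 2 = c ^ 2 + 81 * e ^ 2) :
    ∃ a' b' c' e' : ℤ, e' ≠ 0 ∧ a' ^ 2 = b' ^ 2 + e' ^ 2 ∧ a' ^ 2 = c' ^ 2 + 81 * e' ^ 2 ∧
      a' ^ 2 < a ^ 2 := by
  -- 3 does not divide a
  have ha3 : ¬ (3 : ℤ) ∣ a := by
    intro h3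
    have key : ∀ x y : ZMod 3, x ^ 2 + y ^ 2 = 0 → y = 0 := by decide
    have h0 : ((a : ℤ) : ZMod 3) = 0 := (ZMod.intCast_zmod_eq_zero_iff_dvd a 3).mpr h3
    have h1' : ((b : ℤ) : ZMod 3) ^ 2 + ((e : ℤ) : ZMod 3) ^ 2 = 0 := by
      have := congrArg (fun t : ℤ => (t : ZMod 3)) h1
      simp only [Int.cast_pow, Int.cast_add] at this
      rw [← this, h0]; ring
    have h3e : (3 : ℤ) ∣ e := (ZMod.intCast_zmod_eq_zero_iff_dvd e 3).mp (key _ _ h1')
    have hu := hgcd.isUnit_of_dvd' h3 h3e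
    rw [Int.isUnit_iff] at hu
    omega
  have hbe : IsCoprime b e := by
    have h := hgcd.pow_left (m := 2)
    rw [h1] at h
    have h' : IsCoprime (b ^ 2) e := IsCoprime.of_add_mul_left_left (z := e) (by
      rw [show b ^ 2 + e * e = b ^ 2 + e ^ 2 by ring]; exact h)
    exact (IsCoprime.pow_left_iff (by norm_num)).mp h'
  have ha3' : IsCoprime a 3 := by
    rcases (by omega : a % 3 = 1 ∨ a % 3 = 2) with h | h
    · exact ⟨1, -(a / 3), by omega⟩
    · exact ⟨-1, a / 3 + 1, by omega⟩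
  have hc9e : IsCoprime c (9 * e) := by
    have h9 : IsCoprime a (9 * e) := by
      have := ha3'.pow_right (n := 2)
      exact IsCoprime.mul_right (by norm_num at this; exact this) hgcd
    have h := h9.pow_left (m := 2)
    rw [h2] at h
    have h' : IsCoprime (c ^ 2) (9 * e) := IsCoprime.of_add_mul_left_left (z := 9 * e) (by
      rw [show c ^ 2 + 9 * e * (9 * e) = c ^ 2 + 81 * e ^ 2 by ring]; exact h)
    exact (IsCoprime.pow_left_iff (by norm_num)).mp h'
  rcases Int.emod_two_eq_zero_or_one e with he2 | he2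
  · -- e even
    have ha2 : a % 2 = 1 := by
      by_contra hcon
      have h2a : (2 : ℤ) ∣ a := Int.dvd_of_emod_eq_zero (by omega)
      have h2e : (2 : ℤ) ∣ e := Int.dvd_of_emod_eq_zero he2
      have hu := hgcd.isUnit_of_dvd' h2a h2e
      rw [Int.isUnit_iff] at hu
      omega
    have hsa := descent81_sq_mod_two a
    have hsb := descent81_sq_mod_two b
    have hsc := descent81_sq_mod_two c
    have hse := descent81_sq_mod_two e
    have hb2 : b % 2 = 1 := by omega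
    have hc2 : c % 2 = 1 := by omega
    have hb0 : 0 < b := by omega
    obtain ⟨F, G, hbF, heF, haF, -, -, -⟩ :=
      PythagoreanTriple.coprime_classification' (x := b) (y := e) (z := a)
        (by unfold PythagoreanTriple; linear_combination (-1 : ℤ) * h1)
        (Int.isCoprime_iff_gcd_eq_one.mp hbe) hb2 ha
    obtain ⟨H, K, hcH, h9H, haH, -, -, -⟩ :=
      PythagoreanTriple.coprime_classification' (x := c) (y := 9 * e) (z := a)
        (by unfold PythagoreanTriple; linear_combination (-1 : ℤ) * h2)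
        (Int.isCoprime_iff_gcd_eq_one.mp hc9e) hc2 ha
    have hHK : H * K = 9 * (F * G) :=
      mul_left_cancel₀ (two_ne_zero (α := ℤ)) (by linear_combination (-1 : ℤ) * h9H + 9 * heF)
    have hsum : F ^ 2 + G ^ 2 = H ^ 2 + K ^ 2 := by rw [← haF, ← haH]
    have hF : F ≠ 0 := by
      rintro rfl
      exact he (by rw [heF]; ring)
    have hG : G ≠ 0 := by
      rintro rfl
      exact he (by rw [heF]; ring)
    have hcop : IsCoprime b c := descent81_coprime_bc b c e hbe hb2 (by linarith)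
    obtain ⟨a', b', c', e', he', h1', h2', hlt⟩ :=
      descent81_even_core F G H K b c hbF hcH hHK hsum hF hG hb0 hcop
    exact ⟨a', b', c', e', he', h1', h2', by rw [haF]; exact hlt⟩
  · -- e odd: impossible
    exfalso
    obtain ⟨F, G, heF, -, haF, -, hpar, -⟩ :=
      PythagoreanTriple.coprime_classification' (x := e) (y := b) (z := a)
        (by unfold PythagoreanTriple; linear_combination (-1 : ℤ) * h1)
        (Int.isCoprime_iff_gcd_eq_one.mp hbe.symm) he2 ha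
    obtain ⟨H, K, h9H, -, haH, -, -, -⟩ :=
      PythagoreanTriple.coprime_classification' (x := 9 * e) (y := c) (z := a)
        (by unfold PythagoreanTriple; linear_combination (-1 : ℤ) * h2)
        (Int.isCoprime_iff_gcd_eq_one.mp hc9e.symm) (by omega) ha
    exact descent81_odd_case F G H K e heF h9H (by rw [← haF, ← haH]) hpar

/-- The descent step: a coprime solution yields a solution with strictly smaller `a ^ 2`. -/
theorem descent81_step (a b c e : ℤ) (hgcd : IsCoprime a e) (he : e ≠ 0)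
    (h1 : a ^ 2 = b ^ 2 + e ^ 2) (h2 : a ^ 2 = c ^ 2 + 81 * e ^ 2) :
    ∃ a' b' c' e' : ℤ, e' ≠ 0 ∧ a' ^ 2 = b' ^ 2 + e' ^ 2 ∧ a' ^ 2 = c' ^ 2 + 81 * e' ^ 2 ∧
      a' ^ 2 < a ^ 2 := by
  have ha0 : a ≠ 0 := by
    rintro rfl
    have he2 : 0 < e ^ 2 := by positivity
    nlinarith [sq_nonneg b]
  have hgcd' : IsCoprime |a| e := by
    rcases abs_choice a with h | h <;> rw [h]
    · exact hgcd
    · exact hgcd.neg_left
  have := descent81_step_pos |a| |b| |c| e hgcd' he (abs_pos.mpr ha0) (abs_nonneg b) (abs_nonneg c)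
    (by rw [sq_abs, sq_abs]; exact h1) (by rw [sq_abs, sq_abs]; exact h2)
  rw [sq_abs] at this
  exact this

/-- There is no integer solution of `a² = b² + e² = c² + 81 e²` with `e ≠ 0`. -/
theorem descent81_no_solution_aux : ∀ (n : ℕ) (a b c e : ℤ), a.natAbs = n → e ≠ 0 →
    a ^ 2 = b ^ 2 + e ^ 2 → a ^ 2 = c ^ 2 + 81 * e ^ 2 → False := by
  intro n
  induction n using Nat.strong_induction_on with
  | _ n ih =>
    intro a b c e han he h1 h2
    have hg : 0 < Int.gcd a e := Int.gcd_pos_of_ne_zero_right a he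
    obtain ⟨a1, e1, hcop, ha1, he1⟩ := Int.exists_gcd_one hg
    obtain ⟨d, hd⟩ : ∃ d : ℤ, d = (Int.gcd a e : ℤ) := ⟨_, rfl⟩
    rw [← hd] at ha1 he1
    have hd0 : d ≠ 0 := by rw [hd]; exact_mod_cast hg.ne'
    have hd2 : d ^ 2 ≠ 0 := pow_ne_zero 2 hd0
    have he10 : e1 ≠ 0 := by
      rintro rfl
      exact he (by rw [he1]; ring)
    have hdb : d ∣ b := by
      have : d ^ 2 ∣ b ^ 2 := ⟨a1 ^ 2 - e1 ^ 2, by rw [ha1, he1] at h1; linear_combination (-1 : ℤ) * h1⟩
      exact (Int.pow_dvd_pow_iff two_ne_zero).mp this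
    have hdc : d ∣ c := by
      have : d ^ 2 ∣ c ^ 2 := ⟨a1 ^ 2 - 81 * e1 ^ 2, by rw [ha1, he1] at h2; linear_combination (-1 : ℤ) * h2⟩
      exact (Int.pow_dvd_pow_iff two_ne_zero).mp this
    obtain ⟨b1, hb1⟩ := hdb
    obtain ⟨c1, hc1⟩ := hdc
    have h1' : a1 ^ 2 = b1 ^ 2 + e1 ^ 2 := by
      apply mul_left_cancel₀ hd2
      rw [ha1, he1, hb1] at h1
      linear_combination h1
    have h2' : a1 ^ 2 = c1 ^ 2 + 81 * e1 ^ 2 := by
      apply mul_left_cancel₀ hd2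
      rw [ha1, he1, hc1] at h2
      linear_combination h2
    obtain ⟨a', b', c', e', he', h1'', h2'', hlt⟩ :=
      descent81_step a1 b1 c1 e1 (Int.isCoprime_iff_gcd_eq_one.mpr hcop) he10 h1' h2'
    have hlt' : a'.natAbs < n := by
      rw [← han, Int.natAbs_lt_iff_sq_lt]
      have : a1 ^ 2 ≤ a ^ 2 := by
        rw [ha1, mul_pow]
        have hd1 : 1 ≤ d ^ 2 := by
          have := sq_nonneg d
          omega
        nlinarith [sq_nonneg a1]
      linarith
    exact ih a'.natAbs hlt' a' b' c' e' rfl he' h1'' h2''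

theorem descent81_no_solution (a b c e : ℤ) (he : e ≠ 0)
    (h1 : a ^ 2 = b ^ 2 + e ^ 2) (h2 : a ^ 2 = c ^ 2 + 81 * e ^ 2) : False :=
  descent81_no_solution_aux a.natAbs a b c e rfl he h1 h2

/-- No rational number `x` has `x`, `x - 1`, `x - 81` all squares. -/
theorem descent81_no_three_squares (x r p q : ℚ) (hr : x = r ^ 2) (hp : x - 1 = p ^ 2)
    (hq : x - 81 = q ^ 2) : False := by
  have hrd : (r.den : ℚ) ≠ 0 := by exact_mod_cast r.den_ne_zero
  have hpd : (p.den : ℚ) ≠ 0 := by exact_mod_cast p.den_ne_zero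
  have hqd : (q.den : ℚ) ≠ 0 := by exact_mod_cast q.den_ne_zero
  have hr' : r * r.den = r.num := Rat.mul_den_eq_num r
  have hp' : p * p.den = p.num := Rat.mul_den_eq_num p
  have hq' : q * q.den = q.num := Rat.mul_den_eq_num q
  refine descent81_no_solution (r.num * p.den * q.den) (p.num * r.den * q.den)
    (q.num * r.den * p.den) (r.den * p.den * q.den) ?_ ?_ ?_
  · exact_mod_cast mul_ne_zero (mul_ne_zero hrd hpd) hqd
  · have h : (((r.num * p.den * q.den) ^ 2 : ℤ) : ℚ) =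
        (((p.num * r.den * q.den) ^ 2 + (r.den * p.den * q.den) ^ 2 : ℤ) : ℚ) := by
      push_cast
      rw [← hr', ← hp']
      linear_combination ((r.den : ℚ) * p.den * q.den) ^ 2 * (hp - hr)
    exact_mod_cast h
  · have h : (((r.num * p.den * q.den) ^ 2 : ℤ) : ℚ) =
        (((q.num * r.den * p.den) ^ 2 + 81 * (r.den * p.den * q.den) ^ 2 : ℤ) : ℚ) := by
      push_cast
      rw [← hr', ← hq']
      linear_combination ((r.den : ℚ) * p.den * q.den) ^ 2 * (hq - hr)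
    exact_mod_cast h

/-- Rational points of `y² = x (x - 1) (x - 81)`: only the three 2-torsion points. -/
theorem descent81_legendre (x y : ℚ) (h : y ^ 2 = x * (x - 1) * (x - 81)) :
    x = 0 ∨ x = 1 ∨ x = 81 := by
  by_cases hy : y = 0
  · subst hy
    have h0 : x * (x - 1) * (x - 81) = 0 := by linear_combination (-1 : ℚ) * h
    rcases mul_eq_zero.mp h0 with h0 | h0
    · rcases mul_eq_zero.mp h0 with h0 | h0
      · exact Or.inl h0
      · exact Or.inr (Or.inl (by linarith))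
    · exact Or.inr (Or.inr (by linarith))
  · exfalso
    have h2y : (2 * y) ^ 2 ≠ 0 := pow_ne_zero 2 (mul_ne_zero two_ne_zero hy)
    refine descent81_no_three_squares (((x ^ 2 - 81) / (2 * y)) ^ 2) ((x ^ 2 - 81) / (2 * y))
      ((x ^ 2 - 2 * x + 81) / (2 * y)) ((x ^ 2 - 162 * x + 81) / (2 * y)) rfl ?_ ?_
    · rw [div_pow, div_pow, div_sub_one h2y, div_left_inj' h2y]
      linear_combination (-4 : ℚ) * h
    · rw [div_pow, div_pow, div_sub' h2y, div_left_inj' h2y]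
      linear_combination (-324 : ℚ) * h

end Fermat.Agent.S51
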